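import Fermat.Agent.S59.Datum.Defs
import Fermat.Agent.R.H25_Carayol
import Fermat.Agent.R.H91_Lucas
import Fermat.Agent.Lib.FrobDensity.Main
import Fermat.Prelude.Def_GaloisRep_ResidualEquiv

/-!
# S59 package DATUM, leaf RESEQ (helper57)

Two residual representations with the same characteristic polynomials at the Frobenius elements
outside a finite set of primes, one of them absolutely irreducible, are equivalent.

* `charpoly_eq_of_frob` : Frobenius density (existence form, `Lib.FrobDensity.stmt_FD`) and the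
  Lucas lemma (`R.H91.charpoly_pow_eq_of_charpoly_eq`) give equal characteristic polynomials at
  every element of the Galois group (both representations factor through a finite level).
* `isEquiv_of_charpoly_eq` : Carayol's theorem over the field `k`
  (`R.H25.exists_conj_of_trace_eq`, `S53.Schur.exists_det_ne_zero`).
* `stmt_ResEq : Stmt_ResEq`.
-/

set_option autoImplicit false

open Polynomial

namespace Fermat.Agent.S59.Datum.H57

open Fermat.Agent.S53.Schur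

variable {k : Type} [Field k]

/-- Equal Frobenius characteristic polynomials outside a finite set of primes give equal
characteristic polynomials everywhere. -/
theorem charpoly_eq_of_frob (ρ₁ ρ₂ : ResidualGaloisRep k) (S : Finset ℕ)
    (h : ∀ ℓ : ℕ, ℓ.Prime → ℓ ∉ S → ∀ B : ValuationSubring (AlgebraicClosure ℚ),
      B.LiesOverPrime ℓ → ∀ σ : GalQ, B.IsFrobeniusAt σ ℓ →
        LinearMap.charpoly (ρ₁.ρ σ) = LinearMap.charpoly (ρ₂.ρ σ))
    (g : GalQ) : LinearMap.charpoly (ρ₁.ρ g) = LinearMap.charpoly (ρ₂.ρ g) := by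
  obtain ⟨L₁, hL₁, h₁⟩ := ρ₁.factorsThroughFiniteLevel
  obtain ⟨L₂, hL₂, h₂⟩ := ρ₂.factorsThroughFiniteLevel
  have := hL₁; have := hL₂
  have hL : FiniteDimensional ℚ ↥(L₁ ⊔ L₂) := IntermediateField.finiteDimensional_sup L₁ L₂
  obtain ⟨ℓ, A, φ, j, hℓ, hℓS, hA, hφ, hj⟩ :=
    Fermat.Agent.Lib.FrobDensity.stmt_FD S (L₁ ⊔ L₂) hL g
  set τ : GalQ := g⁻¹ * φ ^ j with hτdef
  have hτ : ∀ x ∈ L₁ ⊔ L₂, τ x = x := by
    intro x hx
    rw [hτdef, AlgEquiv.mul_apply, hj x hx]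
    exact (AlgEquiv.symm_apply_apply g x)
  have hgτ : g * τ = φ ^ j := by rw [hτdef, mul_inv_cancel_left]
  have hτ₁ : ∀ x ∈ L₁, τ x = x := fun x hx => hτ x ((le_sup_left : L₁ ≤ L₁ ⊔ L₂) hx)
  have hτ₂ : ∀ x ∈ L₂, τ x = x := fun x hx => hτ x ((le_sup_right : L₂ ≤ L₁ ⊔ L₂) hx)
  have e₁ : ρ₁.ρ (φ ^ j) = ρ₁.ρ g := by rw [← hgτ, map_mul, h₁ τ hτ₁, mul_one]
  have e₂ : ρ₂.ρ (φ ^ j) = ρ₂.ρ g := by rw [← hgτ, map_mul, h₂ τ hτ₂, mul_one]
  rw [← e₁, ← e₂, map_pow, map_pow]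
  exact Fermat.Agent.R.H91.charpoly_pow_eq_of_charpoly_eq ρ₁.finrank_eq ρ₂.finrank_eq _ _
    (h ℓ hℓ hℓS A hA φ hφ) j

/-- **Carayol's theorem over a field** (dimension 2): two residual representations with the same
characteristic polynomials, the second one absolutely irreducible, are equivalent. -/
theorem isEquiv_of_charpoly_eq (ρ₁ ρ₂ : ResidualGaloisRep k)
    (hirr : ρ₂.IsAbsolutelyIrreducible)
    (hcp : ∀ σ : GalQ, LinearMap.charpoly (ρ₁.ρ σ) = LinearMap.charpoly (ρ₂.ρ σ)) :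
    ρ₁.IsEquiv ρ₂ := by
  classical
  let b₁ : Module.Basis (Fin 2) k ρ₁.V := Module.finBasisOfFinrankEq k ρ₁.V ρ₁.finrank_eq
  let b₂ : Module.Basis (Fin 2) k ρ₂.V := Module.finBasisOfFinrankEq k ρ₂.V ρ₂.finrank_eq
  let M₁ : GalQ →* Matrix (Fin 2) (Fin 2) k :=
    { toFun := fun σ => LinearMap.toMatrix b₁ b₁ (ρ₁.ρ σ)
      map_one' := by rw [map_one]; exact LinearMap.toMatrix_one b₁
      map_mul' := fun σ τ => by rw [map_mul]; exact LinearMap.toMatrix_mul b₁ _ _ }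
  let M₂ : GalQ →* Matrix (Fin 2) (Fin 2) k :=
    { toFun := fun σ => LinearMap.toMatrix b₂ b₂ (ρ₂.ρ σ)
      map_one' := by rw [map_one]; exact LinearMap.toMatrix_one b₂
      map_mul' := fun σ τ => by rw [map_mul]; exact LinearMap.toMatrix_mul b₂ _ _ }
  obtain ⟨g, hg⟩ := exists_det_ne_zero ρ₂ hirr b₂
  have hg' : IsUnit (flat fun p => M₂ (g p)).det := isUnit_iff_ne_zero.mpr hg
  have htr : ∀ σ, (M₂ σ).trace = (M₁ σ).trace := by
    intro σ
    have h1 : (M₁ σ).charpoly = (M₂ σ).charpoly := by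
      show (LinearMap.toMatrix b₁ b₁ (ρ₁.ρ σ)).charpoly
        = (LinearMap.toMatrix b₂ b₂ (ρ₂.ρ σ)).charpoly
      rw [LinearMap.charpoly_toMatrix, LinearMap.charpoly_toMatrix]
      exact hcp σ
    rw [Matrix.trace_eq_neg_charpoly_coeff, Matrix.trace_eq_neg_charpoly_coeff, h1]
  obtain ⟨P, hP, hint⟩ := Fermat.Agent.R.H25.exists_conj_of_trace_eq M₂ M₁ g hg' htr
  -- `hint σ : M₁ σ * P = P * M₂ σ`, `P` is the matrix of a map `ρ₂.V → ρ₁.V`
  have hdet : IsUnit (LinearMap.toMatrix b₂ b₁ (Matrix.toLin b₂ b₁ P)).det := by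
    rw [LinearMap.toMatrix_toLin]
    exact hP
  have hcomp : ∀ σ, (Matrix.toLin b₂ b₁ P) ∘ₗ (ρ₂.ρ σ) = (ρ₁.ρ σ) ∘ₗ (Matrix.toLin b₂ b₁ P) := by
    intro σ
    apply (LinearMap.toMatrix b₂ b₁).injective
    rw [LinearMap.toMatrix_comp b₂ b₂ b₁, LinearMap.toMatrix_comp b₂ b₁ b₁,
      LinearMap.toMatrix_toLin]
    exact (hint σ).symm
  have e : ResidualGaloisRep.Equiv ρ₂ ρ₁ :=
    ⟨LinearEquiv.ofIsUnitDet hdet, fun σ x => congrArg (fun f => f x) (hcomp σ)⟩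
  exact ⟨e.symm⟩

/-- **RESEQ.** -/
theorem stmt_ResEq : Stmt_ResEq := by
  intro k _ ρ₁ ρ₂ S hirr h
  exact isEquiv_of_charpoly_eq ρ₁ ρ₂ hirr (charpoly_eq_of_frob ρ₁ ρ₂ S h)

end Fermat.Agent.S59.Datum.H57
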