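/-
S59 package DATUM (helper7): Carayol descent in rank two, elementary form.

A family of two-dimensional matrix representations `M i : G → M₂(A i)` whose traces come from a
common ring `T` (jointly injective `x i : T → A i`), with an element `c` acting as
`diag(1, -1)` everywhere and one product of off-diagonal entries which is a unit of `T`,
descends to a representation `R : G → M₂(T)`: every `M i` is conjugate (by a diagonal matrix) to
the image of `R`.
-/
import Mathlib

set_option autoImplicit false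

namespace Fermat.Agent.S59.Datum.H7

open Matrix

/-- `C = diag(1, -1)`, entrywise. -/
structure IsSign {A : Type*} [CommRing A] (C : Matrix (Fin 2) (Fin 2) A) : Prop where
  h00 : C 0 0 = 1
  h01 : C 0 1 = 0
  h10 : C 1 0 = 0
  h11 : C 1 1 = -1

section Entries

variable {A : Type*} [CommRing A]

/-- The `(0,0)` entry from traces. -/
theorem entry00_eq (C X : Matrix (Fin 2) (Fin 2) A) (hC : IsSign C) :
    X.trace + (C * X).trace = 2 * X 0 0 := by
  simp only [Matrix.trace_fin_two, Matrix.mul_apply, Fin.sum_univ_two, hC.h00, hC.h01, hC.h10,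
    hC.h11]
  ring

/-- The `(1,1)` entry from traces. -/
theorem entry11_eq (C X : Matrix (Fin 2) (Fin 2) A) (hC : IsSign C) :
    X.trace - (C * X).trace = 2 * X 1 1 := by
  simp only [Matrix.trace_fin_two, Matrix.mul_apply, Fin.sum_univ_two, hC.h00, hC.h01, hC.h10,
    hC.h11]
  ring

/-- A product of off-diagonal entries from traces. -/
theorem entry01_mul_entry10_eq (C X Y : Matrix (Fin 2) (Fin 2) A) (hC : IsSign C) :
    (X * Y).trace - (X * C * Y).trace + (C * X * Y).trace - (C * X * C * Y).trace =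
      4 * (X 0 1 * Y 1 0) := by
  simp only [Matrix.trace_fin_two, Matrix.mul_apply, Fin.sum_univ_two, hC.h00, hC.h01, hC.h10,
    hC.h11]
  ring

end Entries

section Descent

variable {T : Type*} [CommRing T] {ι : Type*} {A : ι → Type*} [∀ i, CommRing (A i)]
  {G : Type*} [Group G]

/-- **Carayol descent, elementary form.** -/
theorem exists_descent (x : ∀ i, T →+* A i) (hinj : ∀ t : T, (∀ i, x i t = 0) → t = 0)
    (h2 : IsUnit (2 : T)) (M : ∀ i, G →* Matrix (Fin 2) (Fin 2) (A i))
    (tr : G → T) (htr : ∀ i g, (M i g).trace = x i (tr g))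
    (c : G) (hc : ∀ i, IsSign (M i c))
    (g h : G) (u : T) (hu : IsUnit u) (hgh : ∀ i, M i g 0 1 * M i h 1 0 = x i u) :
    ∃ (R : G →* Matrix (Fin 2) (Fin 2) T) (s : ∀ i, (A i)ˣ),
      (∀ σ, (R σ).trace = tr σ) ∧
      ∀ i σ, (R σ).map (x i) =
        Matrix.of ![![M i σ 0 0, M i σ 0 1 * (s i : A i)],
          ![M i σ 1 0 * ((s i)⁻¹ : (A i)ˣ), M i σ 1 1]] := by
  classical
  obtain ⟨w2, hw2⟩ := h2.exists_right_inv
  obtain ⟨v, hv⟩ := hu.exists_right_inv
  have hw2' : ∀ i, (2 : A i) * x i w2 = 1 := fun i => by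
    have := congrArg (x i) hw2
    rwa [map_mul, map_ofNat, map_one] at this
  -- the units `s i = M i h 1 0`
  have hs : ∀ i, IsUnit (M i h 1 0) := fun i => by
    have h1 : x i u * x i v = 1 := by rw [← map_mul, hv, map_one]
    rw [← hgh i] at h1
    exact IsUnit.of_mul_eq_one (M i g 0 1 * x i v) (by rw [← h1]; ring)
  let s : ∀ i, (A i)ˣ := fun i => (hs i).unit
  have hsv : ∀ i, ((s i : (A i)ˣ) : A i) = M i h 1 0 := fun i => (hs i).unit_spec
  have hsinv : ∀ i, (((s i)⁻¹ : (A i)ˣ) : A i) = M i g 0 1 * x i v := fun i => by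
    apply Units.inv_eq_of_mul_eq_one_right
    rw [hsv]
    have h1 : x i u * x i v = 1 := by rw [← map_mul, hv, map_one]
    rw [← hgh i] at h1
    rw [← h1]; ring
  -- the entries
  let a : G → T := fun σ => w2 * (tr σ + tr (c * σ))
  let d : G → T := fun σ => w2 * (tr σ - tr (c * σ))
  let b : G → T := fun σ =>
    w2 * w2 * (tr (σ * h) - tr (σ * c * h) + tr (c * σ * h) - tr (c * σ * c * h))
  let e : G → T := fun σ =>
    v * (w2 * w2 * (tr (g * σ) - tr (g * c * σ) + tr (c * g * σ) - tr (c * g * c * σ)))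
  have h4 : ∀ i (z : A i), x i w2 * x i w2 * (4 * z) = z := fun i z => by
    have := hw2' i
    linear_combination (2 * x i w2 * z + z) * this
  have ha : ∀ i σ, x i (a σ) = M i σ 0 0 := fun i σ => by
    simp only [a, map_mul, map_add, ← htr, map_mul (M i)]
    rw [add_comm, add_comm ((M i c * M i σ).trace), entry00_eq _ _ (hc i)]
    linear_combination (M i σ 0 0) * hw2' i
  have hd : ∀ i σ, x i (d σ) = M i σ 1 1 := fun i σ => by
    simp only [d, map_mul, map_sub, ← htr, map_mul (M i)]
    rw [entry11_eq _ _ (hc i)]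
    linear_combination (M i σ 1 1) * hw2' i
  have hb : ∀ i σ, x i (b σ) = M i σ 0 1 * (s i : A i) := fun i σ => by
    simp only [b, map_mul, map_sub, map_add, ← htr, map_mul (M i)]
    rw [entry01_mul_entry10_eq _ _ _ (hc i), h4, hsv]
  have he : ∀ i σ, x i (e σ) = M i σ 1 0 * (((s i)⁻¹ : (A i)ˣ) : A i) := fun i σ => by
    simp only [e, map_mul, map_sub, map_add, ← htr, map_mul (M i)]
    rw [entry01_mul_entry10_eq _ _ _ (hc i), h4, hsinv]
    ring
  let R0 : G → Matrix (Fin 2) (Fin 2) T := fun σ => Matrix.of ![![a σ, b σ], ![e σ, d σ]]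
  have hR0 : ∀ i σ, (R0 σ).map (x i) =
      Matrix.of ![![M i σ 0 0, M i σ 0 1 * (s i : A i)],
          ![M i σ 1 0 * ((s i)⁻¹ : (A i)ˣ), M i σ 1 1]] := by
    intro i σ
    ext j k
    fin_cases j <;> fin_cases k
    · exact ha i σ
    · exact hb i σ
    · exact he i σ
    · exact hd i σ
  have hext : ∀ X Y : Matrix (Fin 2) (Fin 2) T, (∀ i, X.map (x i) = Y.map (x i)) → X = Y := by
    intro X Y hXY
    ext j k
    rw [← sub_eq_zero]
    refine hinj _ fun i => ?_
    rw [map_sub, sub_eq_zero]
    exact congrFun (congrFun (hXY i) j) k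
  have hss : ∀ i, ((s i : (A i)ˣ) : A i) * (((s i)⁻¹ : (A i)ˣ) : A i) = 1 := fun i =>
    Units.mul_inv _
  have hone : R0 1 = 1 := by
    apply hext
    intro i
    rw [hR0, map_one]
    ext j k
    fin_cases j <;> fin_cases k <;> simp
  have hmul : ∀ σ τ, R0 (σ * τ) = R0 σ * R0 τ := by
    intro σ τ
    apply hext
    intro i
    have hm : (R0 σ * R0 τ).map (x i) = (R0 σ).map (x i) * (R0 τ).map (x i) :=
      Matrix.map_mul
    rw [hm, hR0, hR0, hR0, map_mul]
    ext j k
    fin_cases j <;> fin_cases k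
    · simp only [Fin.zero_eta, Fin.isValue, Matrix.mul_apply, Fin.sum_univ_two, Matrix.of_apply,
        Matrix.cons_val_zero, Matrix.cons_val_one]
      linear_combination (-(M i σ 0 1 * M i τ 1 0)) * hss i
    · simp only [Fin.zero_eta, Fin.mk_one, Fin.isValue, Matrix.mul_apply, Fin.sum_univ_two,
        Matrix.of_apply, Matrix.cons_val_zero, Matrix.cons_val_one]
      ring
    · simp only [Fin.zero_eta, Fin.mk_one, Fin.isValue, Matrix.mul_apply, Fin.sum_univ_two,
        Matrix.of_apply, Matrix.cons_val_zero, Matrix.cons_val_one]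
      ring
    · simp only [Fin.mk_one, Fin.isValue, Matrix.mul_apply, Fin.sum_univ_two, Matrix.of_apply,
        Matrix.cons_val_zero, Matrix.cons_val_one]
      linear_combination (-(M i σ 1 0 * M i τ 0 1)) * hss i
  refine ⟨{ toFun := R0, map_one' := hone, map_mul' := hmul }, s, fun σ => ?_, fun i σ => hR0 i σ⟩
  show (R0 σ).trace = tr σ
  simp only [R0, Matrix.trace_fin_two, Matrix.of_apply, Matrix.cons_val_zero, Matrix.cons_val_one,
    a, d]
  linear_combination (tr σ) * hw2

end Descent

end Fermat.Agent.S59.Datum.H7
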