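/-
S59 package DATUM (owner-planner helper7).  Plan: NOTES/plan/S59_DATUM.md.

Target: a Hecke–Galois datum over the FULL local Hecke ring `T = heckeLocal N S 𝒪 θ`
(`Stmt_DATUM`), by Carayol descent from the representations at the points of `T` (`Stmt_S30`).

Leaves (exact statements below; prove `theorem … : Stmt_X` in `S59/Datum/H<seat>_<Name>.lean`,
namespace `Fermat.Agent.S59.Datum.H<seat>`):
* `Stmt_Ring`   : the ring-theoretic fields of the datum for `heckeLocal`.
* `Stmt_Adapt`  : an involution of determinant `-1` on a free module of rank two over a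
                  principal ideal domain in which `2` is a unit is `diag(1, -1)` in some basis.
* `Stmt_DetCyc` : `det ρ(Frob_ℓ) = ℓ` for almost all `ℓ` implies `DetIsCyclotomic`.
* `Stmt_ResEq`  : two residual representations with the same Frobenius characteristic
                  polynomials, one of them absolutely irreducible, are equivalent.
-/
import Fermat.Prelude.Def_CuspForm_HeckeLocal
import Fermat.Prelude.Def_GaloisRep_LocalConditions
import Fermat.Agent.R.Defs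
import Fermat.Agent.S59.Datum.H7_Descent

set_option autoImplicit false

open Polynomial IsLocalRing CuspForm

namespace Fermat.Agent.S59.Datum

/-- `Gal(ℚ̄/ℚ)`. -/
abbrev GalQ : Type := AlgebraicClosure ℚ ≃ₐ[ℚ] AlgebraicClosure ℚ

/-- The Frobenius characteristic polynomials of `ρbar` are given by `θ`. -/
def FrobHyp {k : Type} [Field k] (ρbar : ResidualGaloisRep k) (N : ℕ) [NeZero N] (S : Finset ℕ)
    (θ : CuspForm.heckeAlgebra N 2 (↑S : Set ℕ) →+* k) : Prop :=
  ∀ (ℓ : ℕ) (hℓ : ℓ.Prime) (hℓN : ¬ ℓ ∣ N) (hℓS : ℓ ∉ (↑S : Set ℕ)),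
    ∀ A : ValuationSubring (AlgebraicClosure ℚ), A.LiesOverPrime ℓ →
      ∀ σ : GalQ, A.IsFrobeniusAt σ ℓ →
        LinearMap.charpoly (ρbar.ρ σ) =
          X ^ 2 - C (θ (CuspForm.heckeAlgebra.T hℓ hℓN hℓS)) * X + C ((ℓ : k))

/-- **DATUM**: the Hecke–Galois datum over the full local Hecke ring, with cyclotomic determinant
and residual representation `ρbar`. -/
def Stmt_DATUM : Prop :=
  ∀ (𝒪 : Type) [CommRing 𝒪] [IsDomain 𝒪] [IsDiscreteValuationRing 𝒪]
    [IsAdicComplete (maximalIdeal 𝒪) 𝒪] [Finite (ResidueField 𝒪)] [CharZero 𝒪]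
    (p : ℕ) [Fact p.Prime], p ≠ 2 → (p : 𝒪) ∈ maximalIdeal 𝒪 →
    ∀ (N : ℕ) [NeZero N] [Fact (CuspForm.HasIntegralStructure N 2)] (S : Finset ℕ), p ∈ S →
    (∀ q : ℕ, q.Prime → q ∣ N → q ∈ S) →
    ∀ (ρbar : ResidualGaloisRep (ResidueField 𝒪)), ρbar.IsAbsolutelyIrreducible →
    ∀ (θ : CuspForm.heckeAlgebra N 2 (↑S : Set ℕ) →+* ResidueField 𝒪), FrobHyp ρbar N S θ →
    ∃ H : CuspForm.HeckeGaloisRepDatum N (↑S : Set ℕ) 𝒪 θ (CuspForm.heckeLocal N (↑S : Set ℕ) 𝒪 θ),
      H.π = CuspForm.heckeLocal.π N (↑S : Set ℕ) 𝒪 θ ∧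
      H.ρ.DetIsCyclotomic p ∧
      H.ρ.residual.IsEquiv (ρbar.baseChangeAlong
        (ResidueField.map (algebraMap 𝒪 (CuspForm.heckeLocal N (↑S : Set ℕ) 𝒪 θ))))

/-! ### Leaves -/

/-- **RING**: the ring-theoretic fields of a Hecke–Galois datum hold for the full local Hecke
ring `heckeLocal` with `π = heckeLocal.π`.
[`heckeLocal` is the localisation of `𝒪 ⊗ 𝕋` at the maximal ideal `ker (𝒪 ⊗ 𝕋 → k)`;
`𝒪 ⊗ 𝕋 → heckeLocal` is surjective (prelude `Algebra.finite_maximalSpectrum_and_bijective_…`, cf.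
`trio_surjective_atPrime` in `Def_CuspForm_HeckeLocal`); a character `χ` lifting `θ` sends the
complement of the maximal ideal to units of `𝒪`.] -/
def Stmt_Ring : Prop :=
  ∀ (𝒪 : Type) [CommRing 𝒪] [IsDomain 𝒪] [IsDiscreteValuationRing 𝒪]
    [IsAdicComplete (maximalIdeal 𝒪) 𝒪]
    (N : ℕ) [NeZero N] [Fact (CuspForm.HasIntegralStructure N 2)] (S : Set ℕ)
    (θ : CuspForm.heckeAlgebra N 2 S →+* ResidueField 𝒪),
    (∀ t : CuspForm.heckeAlgebra N 2 S,
      residue (CuspForm.heckeLocal N S 𝒪 θ) (CuspForm.heckeLocal.π N S 𝒪 θ t) =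
        ResidueField.map (algebraMap 𝒪 (CuspForm.heckeLocal N S 𝒪 θ)) (θ t)) ∧
    Algebra.adjoin 𝒪 (Set.range (CuspForm.heckeLocal.π N S 𝒪 θ)) = ⊤ ∧
    (∀ χ : CuspForm.heckeAlgebra N 2 S →+* 𝒪,
      (∀ t : CuspForm.heckeAlgebra N 2 S, residue 𝒪 (χ t) = θ t) →
        ∃ ψ : CuspForm.heckeLocal N S 𝒪 θ →ₐ[𝒪] 𝒪,
          ∀ t : CuspForm.heckeAlgebra N 2 S, ψ (CuspForm.heckeLocal.π N S 𝒪 θ t) = χ t) ∧
    Function.Surjective
      (residue (CuspForm.heckeLocal N S 𝒪 θ) ∘ algebraMap 𝒪 (CuspForm.heckeLocal N S 𝒪 θ))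

/-- **ADAPT**: an involution of determinant `-1` of a free module of rank two over a principal
ideal domain in which `2` is a unit has matrix `diag(1, -1)` in a suitable basis.
[`V = V⁺ ⊕ V⁻`, `V^± = range (1 ± f)`; both are free; `det = (-1)^(rank V⁻)`.] -/
def Stmt_Adapt : Prop :=
  ∀ (O : Type) [CommRing O] [IsDomain O] [IsPrincipalIdealRing O], IsUnit (2 : O) →
    ∀ (V : Type) [AddCommGroup V] [Module O V] [Module.Free O V] [Module.Finite O V],
      Module.finrank O V = 2 →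
      ∀ f : Module.End O V, f * f = 1 → LinearMap.det f = -1 →
        ∃ b : Module.Basis (Fin 2) O V, H7.IsSign (LinearMap.toMatrix b b f)

/-- **DETCYC**: a representation over a local ring `A` whose topology is the `p`-adic one, with
`det ρ(Frob_ℓ) = ℓ` for all primes `ℓ` outside a finite set, has cyclotomic determinant.
[Copy of the proof of `Tate.H4.stmt_T2_of` (Tate/H4_Det.lean): Frobenius density
`Lib.FrobDensity.stmt_FD`, `R.H89.stmt_FrobCyc`, continuity.] -/
def Stmt_DetCyc : Prop :=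
  ∀ (A : Type) [CommRing A] [IsLocalRing A] (p : ℕ) [Fact p.Prime],
    (p : A) ∈ maximalIdeal A →
    (∀ n : ℕ, ∃ m : ℕ, maximalIdeal A ^ m ≤ Ideal.span {((p ^ n : ℕ) : A)}) →
    ∀ (ρ : GaloisRepAdic A) (S : Finset ℕ),
      (∀ ℓ : ℕ, ℓ.Prime → ℓ ∉ S → ∀ B : ValuationSubring (AlgebraicClosure ℚ),
        B.LiesOverPrime ℓ → ∀ σ : GalQ, B.IsFrobeniusAt σ ℓ →
          LinearMap.det (ρ.ρ σ) = (ℓ : A)) →
      ρ.DetIsCyclotomic p

/-- **RESEQ**: two residual representations with the same characteristic polynomials at the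
Frobenius elements outside a finite set of primes, one of them absolutely irreducible, are
equivalent.  [Frobenius density gives equal traces everywhere (both factor through a finite
level); then `R.H25.isEquiv_of_trace_eq` (Carayol over the field `k`) via
`GaloisRepAdic.ofResidualGaloisRep`, or Burnside + trace form directly.] -/
def Stmt_ResEq : Prop :=
  ∀ (k : Type) [Field k] (ρ₁ ρ₂ : ResidualGaloisRep k) (S : Finset ℕ),
    ρ₂.IsAbsolutelyIrreducible →
    (∀ ℓ : ℕ, ℓ.Prime → ℓ ∉ S → ∀ B : ValuationSubring (AlgebraicClosure ℚ),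
      B.LiesOverPrime ℓ → ∀ σ : GalQ, B.IsFrobeniusAt σ ℓ →
        LinearMap.charpoly (ρ₁.ρ σ) = LinearMap.charpoly (ρ₂.ρ σ)) →
    ρ₁.IsEquiv ρ₂

end Fermat.Agent.S59.Datum
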