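import Fermat.Agent.S59.Datum.Defs2
import Fermat.Agent.S59.Datum.H57_ResEq
import Fermat.Agent.R.H86_Point

/-!
# S59 package DATUM, leaf RESIRR (helper57)

A residual representation over `k'` whose Frobenius characteristic polynomials are the images
under `φ : k → k'` of those of an absolutely irreducible `ρbar` over `k` is absolutely
irreducible and equivalent to the base change of `ρbar`.

* `absIrr_baseChangeAlong` : base change along a field homomorphism preserves absolute
  irreducibility.
* `absIrr_of_isEquiv` : absolute irreducibility is invariant under equivalence.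
* `charpoly_baseChangeAlong` : the characteristic polynomials of a base change.
* `stmt_ResIrr : Stmt_ResIrr`.
-/

set_option autoImplicit false
set_option linter.style.haveILetI false

open Polynomial
open scoped TensorProduct

namespace Fermat.Agent.S59.Datum.H57

open Fermat.Agent.S53.Schur

variable {k k' : Type} [Field k] [Field k']

/-- Base change along a field homomorphism preserves absolute irreducibility. -/
theorem absIrr_baseChangeAlong (φ : k →+* k') (ρbar : ResidualGaloisRep k)
    (h : ρbar.IsAbsolutelyIrreducible) : (ρbar.baseChangeAlong φ).IsAbsolutelyIrreducible := by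
  classical
  letI : Algebra k k' := φ.toAlgebra
  let b : Module.Basis (Fin 2) k ρbar.V := Module.finBasisOfFinrankEq k ρbar.V ρbar.finrank_eq
  let b' : Module.Basis (Fin 2) k' (ρbar.baseChangeAlong φ).V := Algebra.TensorProduct.basis k' b
  obtain ⟨g, hg⟩ := exists_det_ne_zero ρbar h b
  refine Fermat.Agent.R.H86.absIrr_of_det_ne_zero _ b' g ?_
  have hmat : ∀ σ, LinearMap.toMatrix b' b' ((ρbar.baseChangeAlong φ).ρ σ)
      = (LinearMap.toMatrix b b (ρbar.ρ σ)).map φ := fun σ =>
    LinearMap.toMatrix_baseChange k' (ρbar.ρ σ) b b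
  have : (fun p => LinearMap.toMatrix b' b' ((ρbar.baseChangeAlong φ).ρ (g p)))
      = fun p => (LinearMap.toMatrix b b (ρbar.ρ (g p))).map φ := by
    funext p
    rw [hmat]
  rw [this, det_flat_map]
  exact fun h0 => hg ((map_eq_zero_iff _ φ.injective).1 h0)

/-- Absolute irreducibility is invariant under equivalence. -/
theorem absIrr_of_isEquiv {ρ₁ ρ₂ : ResidualGaloisRep k} (e : ρ₁.IsEquiv ρ₂)
    (h : ρ₂.IsAbsolutelyIrreducible) : ρ₁.IsAbsolutelyIrreducible := by
  classical
  obtain ⟨e⟩ := e
  let b₂ : Module.Basis (Fin 2) k ρ₂.V := Module.finBasisOfFinrankEq k ρ₂.V ρ₂.finrank_eq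
  let b₁ : Module.Basis (Fin 2) k ρ₁.V := b₂.map e.toLinearEquiv.symm
  obtain ⟨g, hg⟩ := exists_det_ne_zero ρ₂ h b₂
  refine Fermat.Agent.R.H86.absIrr_of_det_ne_zero ρ₁ b₁ g ?_
  have hmat : ∀ σ, LinearMap.toMatrix b₁ b₁ (ρ₁.ρ σ) = LinearMap.toMatrix b₂ b₂ (ρ₂.ρ σ) := by
    intro σ
    ext i j
    rw [LinearMap.toMatrix_apply, LinearMap.toMatrix_apply]
    show (b₂.map e.toLinearEquiv.symm).repr (ρ₁.ρ σ ((b₂.map e.toLinearEquiv.symm) j)) i = _
    rw [Module.Basis.map_repr, LinearEquiv.trans_apply, LinearEquiv.symm_symm,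
      e.map_apply, Module.Basis.map_apply, LinearEquiv.apply_symm_apply]
  have : (fun p => LinearMap.toMatrix b₁ b₁ (ρ₁.ρ (g p)))
      = fun p => LinearMap.toMatrix b₂ b₂ (ρ₂.ρ (g p)) := by
    funext p
    rw [hmat]
  rw [this]
  exact hg

/-- The characteristic polynomials of a base change. -/
theorem charpoly_baseChangeAlong (φ : k →+* k') (ρbar : ResidualGaloisRep k) (σ : GalQ) :
    LinearMap.charpoly ((ρbar.baseChangeAlong φ).ρ σ) = (LinearMap.charpoly (ρbar.ρ σ)).map φ := by
  letI : Algebra k k' := φ.toAlgebra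
  exact LinearMap.charpoly_baseChange (A := k') (ρbar.ρ σ)

/-- **RESIRR.** -/
theorem stmt_ResIrr : Stmt_ResIrr := by
  intro k k' _ _ φ ρbar ρ' S hirr h
  have hirr' := absIrr_baseChangeAlong φ ρbar hirr
  have he : ρ'.IsEquiv (ρbar.baseChangeAlong φ) := by
    refine stmt_ResEq k' ρ' (ρbar.baseChangeAlong φ) S hirr' ?_
    intro ℓ hℓ hℓS B hB σ hσ
    rw [h ℓ hℓ hℓS B hB σ hσ, charpoly_baseChangeAlong]
  exact ⟨absIrr_of_isEquiv he hirr', he⟩

end Fermat.Agent.S59.Datum.H57
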