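/-
S59 package DATUM (owner-planner helper7), second batch of leaves.  Plan: NOTES/plan/S59_DATUM.md.

Leaves (prove `theorem stmt_X : Stmt_X` in `S59/Datum/H<seat>_<Name>.lean`,
namespace `Fermat.Agent.S59.Datum.H<seat>`):
* `Stmt_Odd`    : there is an involution `c ∈ G_ℚ` (complex conjugation) with `det ρ(c) = -1` for
                  every representation with cyclotomic determinant.
* `Stmt_Unit`   : residually absolutely irreducible ⇒ some `(0,1)` entry and some `(1,0)` entry
                  (in any basis) are units.
* `Stmt_ResIrr` : a residual representation with the Frobenius characteristic polynomials of a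
                  base change of an absolutely irreducible one is absolutely irreducible and
                  equivalent to that base change.
* `Stmt_Cont`   : the matrix representation obtained by descent from finitely many continuous
                  representations at separating points is adically continuous.
-/
import Fermat.Agent.S59.Datum.Defs

set_option autoImplicit false

open Polynomial IsLocalRing CuspForm

namespace Fermat.Agent.S59.Datum

/-- The representation on `T²` given by a matrix-valued homomorphism. -/
noncomputable def matRep {T : Type} [CommRing T] (R : GalQ →* Matrix (Fin 2) (Fin 2) T) :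
    GalQ →* Module.End T (Fin 2 → T) where
  toFun σ := Matrix.toLin' (R σ)
  map_one' := by rw [map_one, Matrix.toLin'_one]; rfl
  map_mul' σ τ := by rw [map_mul, Matrix.toLin'_mul]; rfl

@[simp] theorem matRep_apply {T : Type} [CommRing T] (R : GalQ →* Matrix (Fin 2) (Fin 2) T)
    (σ : GalQ) : matRep R σ = Matrix.toLin' (R σ) := rfl

/-- **ODD**: there is an involution `c` of `ℚ̄` such that every representation with cyclotomic
determinant over a noetherian local ring has `det ρ(c) = -1`.
[`c` from `S52.H97.exists_complexConj` (or prelude `complexConjugation`): `c μ = μ⁻¹ = μ ^ (p^n - 1)`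
on the `p^n`-th roots of unity; so `det ρ(c) + 1 ∈ (p^n) ⊆ 𝔪^n` for all `n`; Krull intersection
`Ideal.iInf_pow_eq_bot_of_isLocalRing`.] -/
def Stmt_Odd : Prop :=
  ∃ c : GalQ, c * c = 1 ∧
    ∀ (A : Type) [CommRing A] [IsLocalRing A] [IsNoetherianRing A] (p : ℕ) [Fact p.Prime]
      (ρ : GaloisRepAdic A), ρ.DetIsCyclotomic p → LinearMap.det (ρ.ρ c) = -1

/-- **UNIT**: if the residual representation is absolutely irreducible, then in any basis some
`(0,1)` entry and some `(1,0)` entry are units.
[Absolutely irreducible ⇒ irreducible.  If all `(0,1)` entries lie in `𝔪`, the line spanned by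
`1 ⊗ b 1` in `k ⊗ V` is stable (`toMatrix b b f i j = b.repr (f (b j)) i`); similarly `(1,0)` and
`1 ⊗ b 0`.] -/
def Stmt_Unit : Prop :=
  ∀ (O : Type) [CommRing O] [IsLocalRing O] (ρ : GaloisRepAdic O),
    ρ.residual.IsAbsolutelyIrreducible →
    ∀ b : Module.Basis (Fin 2) O ρ.V,
      ∃ g h : GalQ, IsUnit (LinearMap.toMatrix b b (ρ.ρ g) 0 1) ∧
        IsUnit (LinearMap.toMatrix b b (ρ.ρ h) 1 0)

/-- **RESIRR**: a residual representation over `k'` whose Frobenius characteristic polynomials
(outside a finite set of primes) are the images under `φ : k → k'` of those of an absolutely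
irreducible `ρbar` over `k` is absolutely irreducible and equivalent to the base change of `ρbar`.
[Base change of an absolutely irreducible representation along a field homomorphism is absolutely
irreducible (`R/H86_Point.lean`: `residual_absIrr_baseChangeAlong`, `absIrr_of_det_ne_zero`);
`LinearMap.charpoly_baseChange`; then `H57.stmt_ResEq`; absolute irreducibility is invariant
under `IsEquiv`.] -/
def Stmt_ResIrr : Prop :=
  ∀ (k k' : Type) [Field k] [Field k'] (φ : k →+* k') (ρbar : ResidualGaloisRep k)
    (ρ' : ResidualGaloisRep k') (S : Finset ℕ),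
    ρbar.IsAbsolutelyIrreducible →
    (∀ ℓ : ℕ, ℓ.Prime → ℓ ∉ S → ∀ B : ValuationSubring (AlgebraicClosure ℚ),
      B.LiesOverPrime ℓ → ∀ σ : GalQ, B.IsFrobeniusAt σ ℓ →
        LinearMap.charpoly (ρ'.ρ σ) = (LinearMap.charpoly (ρbar.ρ σ)).map φ) →
    ρ'.IsAbsolutelyIrreducible ∧ ρ'.IsEquiv (ρbar.baseChangeAlong φ)

/-- **CONT**: let `x i : T → O i` be finitely many ring homomorphisms which separate `T`
adically, `ρ i` (adically continuous) representations over `O i` with bases `b i`, and
`R : G_ℚ → M₂(T)` a homomorphism whose image under every `x i` is the matrix of `ρ i` conjugated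
by `diag(1, s i⁻¹)`.  Then the representation `matRep R` on `T²` is adically continuous.
[Given `n` take `m` from the separation, `L i` from the continuity of `ρ i` at `m`, and the
compositum `L = ⨆ i, L i` (`IntermediateField.finiteDimensional_iSup_of_finite`).  For `σ` fixing
`L` all entries of `M i σ - 1` lie in `𝔪^m` (`R.repr_mem_of_mem_smul_top` in `R/Transfer.lean`),
hence so do the entries of `(R σ - 1).map (x i)`, hence the entries of `R σ - 1` lie in `𝔪_T^n`.] -/
def Stmt_Cont : Prop :=
  ∀ (T : Type) [CommRing T] [IsLocalRing T] (r : ℕ) (O : Fin r → Type)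
    [∀ i, CommRing (O i)] [∀ i, IsLocalRing (O i)]
    (x : ∀ i, T →+* O i) (ρ : ∀ i, GaloisRepAdic (O i))
    (b : ∀ i, Module.Basis (Fin 2) (O i) (ρ i).V)
    (M : ∀ i, GalQ →* Matrix (Fin 2) (Fin 2) (O i)) (s : ∀ i, (O i)ˣ)
    (R : GalQ →* Matrix (Fin 2) (Fin 2) T),
    (∀ n : ℕ, ∃ m : ℕ, ∀ t : T, (∀ i, x i t ∈ maximalIdeal (O i) ^ m) → t ∈ maximalIdeal T ^ n) →
    (∀ i σ, M i σ = LinearMap.toMatrix (b i) (b i) ((ρ i).ρ σ)) →
    (∀ i σ, (R σ).map (x i) =
        Matrix.of ![![M i σ 0 0, M i σ 0 1 * (s i : O i)],
          ![M i σ 1 0 * ((s i)⁻¹ : (O i)ˣ), M i σ 1 1]]) →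
    GaloisActionIsAdicContinuous T (matRep R)

end Fermat.Agent.S59.Datum
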