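/-
S59 package COND (owner helper7): leaves.  Target `Asm.Stmt_COND` (S59/Asm/Cond.lean).

* `Stmt_FlatDesc` : if a representation over a local ring with finite residue field is flat at
  `p` and its residual representation is a base change of `ρbar`, then `ρbar` is flat at `p`.
-/
import Fermat.Agent.S59.Datum.Defs2
import Fermat.Prelude.Def_GaloisRep_Flat

set_option autoImplicit false

open Polynomial IsLocalRing CuspForm

namespace Fermat.Agent.S59.Datum

/-- **FLATDESC**: flatness passes to the residual representation and descends along an extension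
of the (finite) residue field.
[`ρ.IsFlatAt p` at `I = 𝔪_A` (`A ⧸ 𝔪` is finite): `V ⧸ 𝔪 V` is a flat Galois module
(`R.isFlatAt_iff`, `R.IsFlatGaloisModule`).  `V ⧸ 𝔪 V ≃ k_A ⊗ V = ρ.residual.V ≃ k_A ⊗[k] ρbar.V`
(the given equivalence), and `ρbar.V → k_A ⊗[k] ρbar.V`, `v ↦ 1 ⊗ v`, is injective (field
extension) and equivariant: `R.H54.stmt_FlatSub` gives flatness of the Galois module `ρbar.V`.
Finally `(ofResidualGaloisRep ρbar).IsFlatAt p`: for every ideal `I` of `k` the quotient
`V ⧸ I V` is a Galois-equivariant quotient of `V`: `R.H54.stmt_FlatQuot`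
(cf. `S59.H99.isFlatAt_of_isEquiv`, `isFlatGaloisModule_of_le` in S59/H99_DefFl.lean).] -/
def Stmt_FlatDesc : Prop :=
  ∀ (p : ℕ), p.Prime →
    ∀ (k : Type) [Field k] [Finite k] (ρbar : ResidualGaloisRep k)
      (A : Type) [CommRing A] [IsLocalRing A] [Finite (ResidueField A)]
      (φ : k →+* ResidueField A) (ρ : GaloisRepAdic A),
      ρ.residual.IsEquiv (ρbar.baseChangeAlong φ) → ρ.IsFlatAt p →
      (GaloisRepAdic.ofResidualGaloisRep ρbar).IsFlatAt p

end Fermat.Agent.S59.Datum
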