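/-
S59 package DATUM, part POINTS (helper7): finitely many points of the full local Hecke ring
`T = heckeLocal N S 𝒪 θ` with Galois representations (from `Stmt_S30`), jointly injective and
separating `T` `p`-adically with a uniform loss.
-/
import Fermat.Agent.S59.Datum.Defs
import Fermat.Agent.R.H2_SepTcFinal
import Fermat.Agent.R.Transfer

set_option autoImplicit false
set_option linter.style.haveILetI false
set_option linter.unusedSectionVars false

open Polynomial IsLocalRing CuspForm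

namespace Fermat.Agent.S59.Datum.H7

open Fermat.Agent.R

/-- A point of `T` (a local homomorphism to a complete discrete valuation ring of characteristic
`0` which is a finite `𝒪`-algebra) together with a Galois representation over it. -/
structure PtRep (𝒪 : Type) [CommRing 𝒪] (T : Type) [CommRing T] [IsLocalRing T] [Algebra 𝒪 T] :
    Type 1 where
  /-- the coefficient ring -/
  O : Type
  [instCommRing : CommRing O]
  [instIsDomain : IsDomain O]
  [instDVR : IsDiscreteValuationRing O]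
  [instComplete : IsAdicComplete (IsLocalRing.maximalIdeal O) O]
  [instFiniteResidue : Finite (IsLocalRing.ResidueField O)]
  [instCharZero : CharZero O]
  [instAlgebra : Algebra 𝒪 O]
  [instFinite : Module.Finite 𝒪 O]
  /-- the point -/
  x : T →+* O
  isLocalHom : IsLocalHom x
  hxO : ∀ a : 𝒪, x (algebraMap 𝒪 T a) = algebraMap 𝒪 O a
  /-- the representation -/
  ρ : GaloisRepAdic O

attribute [instance] PtRep.instCommRing PtRep.instIsDomain PtRep.instDVR PtRep.instComplete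
  PtRep.instFiniteResidue PtRep.instCharZero PtRep.instAlgebra PtRep.instFinite

section

variable (𝒪 : Type) [CommRing 𝒪] [IsDomain 𝒪] [IsDiscreteValuationRing 𝒪]
  [IsAdicComplete (maximalIdeal 𝒪) 𝒪] [Finite (ResidueField 𝒪)] [CharZero 𝒪]
  (p : ℕ) [Fact p.Prime]
  (N : ℕ) [NeZero N] (S : Finset ℕ)
  (T : Type) [CommRing T] [IsLocalRing T] [Algebra 𝒪 T] [IsLocalHom (algebraMap 𝒪 T)]
  [Module.Finite 𝒪 T] [Module.Free 𝒪 T]

/-- `p` is not a unit of `T`. -/
theorem natCast_mem_maximalIdeal_of_algebra (hp𝒪 : (p : 𝒪) ∈ maximalIdeal 𝒪) :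
    (p : T) ∈ maximalIdeal T := by
  rw [IsLocalRing.mem_maximalIdeal, mem_nonunits_iff]
  intro hu
  have h1 : IsUnit (algebraMap 𝒪 T (p : 𝒪)) := by rwa [map_natCast]
  exact (IsLocalRing.mem_maximalIdeal _).1 hp𝒪 (isUnit_of_map_unit (algebraMap 𝒪 T) _ h1)

/-- One point with its representation for every minimal prime of `T`. -/
theorem exists_ptRep (hS30 : Stmt_S30) (hp𝒪 : (p : 𝒪) ∈ maximalIdeal 𝒪) (hpS : p ∈ S)
    (hNS : ∀ q : ℕ, q.Prime → q ∣ N → q ∈ S)
    (π : CuspForm.heckeAlgebra N 2 (↑S : Set ℕ) →+* T)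
    (𝔮 : Ideal T) (h𝔮 : 𝔮 ∈ minimalPrimes T) :
    ∃ P : PtRep 𝒪 T, (∀ t : T, P.x t = 0 → t ∈ 𝔮) ∧ HasFrobCharpoly (P.x.comp π) P.ρ := by
  obtain ⟨D⟩ := H2.nonempty_algTPoint 𝒪 T 𝔮 h𝔮
  have hpT := natCast_mem_maximalIdeal_of_algebra 𝒪 p T hp𝒪
  have hpR : (p : D.R) ∈ maximalIdeal D.R := by
    rw [IsLocalRing.mem_maximalIdeal, mem_nonunits_iff]
    intro hu
    have h1 : IsUnit (D.ψ (p : T)) := by rwa [map_natCast]
    haveI := D.isLocalHom
    exact (IsLocalRing.mem_maximalIdeal _).1 hpT (isUnit_of_map_unit D.ψ _ h1)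
  obtain ⟨𝒪'', i1, i2, i3, i4, i5, i6, i7, i8, i9, hinj, ρ, hfrob, -⟩ :=
    hS30 p N S hpS hNS D.R hpR (D.ψ.comp π)
  letI : Algebra 𝒪 𝒪'' := ((algebraMap D.R 𝒪'').comp (algebraMap 𝒪 D.R)).toAlgebra
  haveI : IsScalarTower 𝒪 D.R 𝒪'' := IsScalarTower.of_algebraMap_eq (fun _ => rfl)
  haveI : Module.Finite 𝒪 𝒪'' := Module.Finite.trans D.R 𝒪''
  refine ⟨{ O := 𝒪'', x := (algebraMap D.R 𝒪'').comp D.ψ, isLocalHom := ?_, hxO := ?_, ρ := ρ },
    ?_, ?_⟩
  · haveI := D.isLocalHom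
    exact RingHom.isLocalHom_comp _ _
  · intro a
    rw [RingHom.comp_apply, D.hψO]
    rfl
  · intro t ht
    apply D.hker
    rw [RingHom.comp_apply] at ht
    exact hinj (ht.trans (map_zero _).symm)
  · intro ℓ hℓ hℓN hℓS B hB σ hσ
    exact hfrob ℓ hℓ hℓN hℓS B hB σ hσ

variable [IsReduced T]

/-- **POINTS**, abstract form. -/
theorem exists_points_aux (hS30 : Stmt_S30) (hp𝒪 : (p : 𝒪) ∈ maximalIdeal 𝒪) (hpS : p ∈ S)
    (hNS : ∀ q : ℕ, q.Prime → q ∣ N → q ∈ S)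
    (π : CuspForm.heckeAlgebra N 2 (↑S : Set ℕ) →+* T) :
    ∃ (r : ℕ) (P : Fin r → PtRep 𝒪 T) (c : ℕ),
      (∀ t : T, (∀ i, (P i).x t = 0) → t = 0) ∧
      (∀ (n : ℕ) (t : T), (∀ i, (P i).x t ∈ Ideal.span {((p : (P i).O)) ^ (n + c)}) →
          t ∈ Ideal.span {((p : T)) ^ n}) ∧
      ∀ i, HasFrobCharpoly ((P i).x.comp π) (P i).ρ := by
  classical
  haveI : IsNoetherianRing T := IsNoetherianRing.of_finite 𝒪 T
  have hfin : (minimalPrimes T).Finite := minimalPrimes.finite_of_isNoetherianRing _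
  haveI : Finite ↥(minimalPrimes T) := hfin.to_subtype
  obtain ⟨r, ⟨e⟩⟩ := Finite.exists_equiv_fin ↥(minimalPrimes T)
  have hex : ∀ i : Fin r, ∃ P : PtRep 𝒪 T,
      (∀ t : T, P.x t = 0 → t ∈ ((e.symm i : ↥(minimalPrimes T)) : Ideal T)) ∧
        HasFrobCharpoly (P.x.comp π) P.ρ :=
    fun i => exists_ptRep 𝒪 p N S T hS30 hp𝒪 hpS hNS π _ (e.symm i).2
  choose P hP1 hP2 using hex
  have hinj : ∀ t : T, (∀ i, (P i).x t = 0) → t = 0 := by
    intro t ht
    have hmem : ∀ 𝔮 ∈ minimalPrimes T, t ∈ 𝔮 := by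
      intro 𝔮 h𝔮
      have h3 := hP1 (e ⟨𝔮, h𝔮⟩) t (ht _)
      rw [Equiv.symm_apply_apply] at h3
      exact h3
    have h4 : t ∈ sInf (minimalPrimes T) := by
      rw [Submodule.mem_sInf]
      exact hmem
    have h5 : sInf (minimalPrimes T) = nilradical T := by
      rw [minimalPrimes, Ideal.sInf_minimalPrimes]; rfl
    rw [h5, nilradical_eq_zero] at h4
    exact h4
  let F (i : Fin r) : T →ₗ[𝒪] (P i).O :=
    { toFun := (P i).x
      map_add' := map_add _
      map_smul' := fun a t => by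
        rw [Algebra.smul_def, map_mul, (P i).hxO, RingHom.id_apply, Algebra.smul_def] }
  let Χ : T →ₗ[𝒪] (∀ i : Fin r, (P i).O) := LinearMap.pi F
  have hΧ : Function.Injective Χ := by
    rw [injective_iff_map_eq_zero]
    intro t ht
    exact hinj t (fun i => congrFun ht i)
  haveI : IsNoetherian 𝒪 (∀ i : Fin r, (P i).O) :=
    isNoetherian_of_isNoetherianRing_of_finite 𝒪 _
  obtain ⟨c, hc⟩ := H2.exists_pow_smul_bound (p : 𝒪) Χ hΧ
  refine ⟨r, P, c, hinj, fun n t hy => ?_, hP2⟩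
  choose w hw using fun i => Ideal.mem_span_singleton'.mp (hy i)
  have hX : Χ t = (p : 𝒪) ^ (n + c) • w := by
    funext i
    show (P i).x t = ((p : 𝒪) ^ (n + c) • w) i
    rw [Pi.smul_apply, Algebra.smul_def, map_pow, map_natCast, ← hw i, mul_comm]
  obtain ⟨t', ht'⟩ := hc n t ⟨w, hX⟩
  rw [Ideal.mem_span_singleton']
  refine ⟨t', ?_⟩
  rw [ht', Algebra.smul_def, map_pow, map_natCast, mul_comm]

end

end Fermat.Agent.S59.Datum.H7
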