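/-
S59 package DATUM, part TRACE (helper7): the trace function `G_ℚ → T`.

For a finite family of points of `T` with representations having the Frobenius characteristic
polynomials prescribed by `π : 𝕋 → T`, separating `T` `p`-adically, every trace
`tr ρ_i(g)` is the image of one element of `T` (Frobenius density + completeness of `T`).
-/
import Fermat.Agent.S59.Datum.H7_Points
import Fermat.Agent.Lib.FrobDensity.Main

set_option autoImplicit false
set_option linter.style.haveILetI false
set_option linter.unusedSectionVars false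

open Polynomial IsLocalRing CuspForm

namespace Fermat.Agent.S59.Datum.H7

open Fermat.Agent.R

section Limit

variable {𝒪 : Type} [CommRing 𝒪] {T : Type} [CommRing T] [IsLocalRing T] [Algebra 𝒪 T]
  [IsAdicComplete (maximalIdeal T) T]

/-- `p ^ k` lies in the `k`-th power of the maximal ideal. -/
theorem span_pow_le_maximalIdeal_pow {A : Type*} [CommRing A] [IsLocalRing A] {p : ℕ}
    (hp : (p : A) ∈ maximalIdeal A) (k : ℕ) :
    Ideal.span {((p : A)) ^ k} ≤ maximalIdeal A ^ k := by
  rw [Ideal.span_le, Set.singleton_subset_iff]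
  exact Ideal.pow_mem_pow hp k

/-- A local homomorphism maps the powers of the maximal ideal into the powers of the maximal
ideal. -/
theorem map_mem_maximalIdeal_pow {A B : Type*} [CommRing A] [IsLocalRing A] [CommRing B]
    [IsLocalRing B] (x : A →+* B) [IsLocalHom x] (k : ℕ) {t : A} (ht : t ∈ maximalIdeal A ^ k) :
    x t ∈ maximalIdeal B ^ k := by
  have h1 : (maximalIdeal A ^ k).map x ≤ maximalIdeal B ^ k := by
    rw [Ideal.map_pow]
    exact Ideal.pow_right_mono (Ideal.map_le_iff_le_comap.mpr fun a ha =>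
      Ideal.mem_comap.mpr (map_nonunit x a ha)) k
  exact h1 (Ideal.mem_map_of_mem x ht)

/-- A tuple which is approximated `p`-adically by images of elements of `T` is the image of an
element of `T`. -/
theorem exists_of_approx {p : ℕ} (hpT : (p : T) ∈ maximalIdeal T) {r : ℕ}
    (P : Fin r → PtRep 𝒪 T) (c : ℕ)
    (hsep : ∀ (n : ℕ) (t : T), (∀ i, (P i).x t ∈ Ideal.span {((p : (P i).O)) ^ (n + c)}) →
      t ∈ Ideal.span {((p : T)) ^ n})
    (y : ∀ i, (P i).O)
    (happ : ∀ k : ℕ, ∃ u : T, ∀ i, (P i).x u - y i ∈ Ideal.span {((p : (P i).O)) ^ k}) :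
    ∃ t : T, ∀ i, (P i).x t = y i := by
  classical
  have hpO : ∀ i, (p : (P i).O) ∈ maximalIdeal (P i).O := by
    intro i
    rw [IsLocalRing.mem_maximalIdeal, mem_nonunits_iff]
    intro hu
    have h1 : IsUnit ((P i).x (p : T)) := by rwa [map_natCast]
    haveI := (P i).isLocalHom
    exact (IsLocalRing.mem_maximalIdeal _).1 hpT (isUnit_of_map_unit (P i).x _ h1)
  choose u hu using fun k => happ (k + c)
  -- the sequence `u` is Cauchy
  have hmono : ∀ {a b : ℕ}, a ≤ b → ∀ i,
      Ideal.span {((p : (P i).O)) ^ b} ≤ Ideal.span {((p : (P i).O)) ^ a} := by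
    intro a b hab i
    rw [Ideal.span_singleton_le_span_singleton]
    exact pow_dvd_pow _ hab
  have hcauchy : ∀ {m n : ℕ}, m ≤ n → u m - u n ∈ maximalIdeal T ^ m := by
    intro m n hmn
    apply span_pow_le_maximalIdeal_pow hpT m
    apply hsep m
    intro i
    have h1 := hu m i
    have h2 := hmono (Nat.add_le_add_right hmn c) i (hu n i)
    have e : (P i).x (u m - u n) = ((P i).x (u m) - y i) - ((P i).x (u n) - y i) := by
      rw [map_sub]; ring
    rw [e]
    exact Ideal.sub_mem _ h1 h2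
  have hprec : ∃ t : T, ∀ n, u n - t ∈ maximalIdeal T ^ n := by
    obtain ⟨t, ht⟩ := IsPrecomplete.prec (I := maximalIdeal T) (M := T) inferInstance
      (f := u) (fun {m n} hmn => by
        rw [SModEq.sub_mem, smul_eq_mul, Ideal.mul_top]
        exact hcauchy hmn)
    refine ⟨t, fun n => ?_⟩
    have := ht n
    rwa [SModEq.sub_mem, smul_eq_mul, Ideal.mul_top] at this
  obtain ⟨t, ht⟩ := hprec
  refine ⟨t, fun i => ?_⟩
  haveI := (P i).isLocalHom
  have hz : ∀ k, (P i).x t - y i ∈ maximalIdeal (P i).O ^ k := by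
    intro k
    have h1 : (P i).x (u k - t) ∈ maximalIdeal (P i).O ^ k :=
      map_mem_maximalIdeal_pow (P i).x k (ht k)
    have h2 : (P i).x (u k) - y i ∈ maximalIdeal (P i).O ^ k :=
      span_pow_le_maximalIdeal_pow (hpO i) k (hmono (Nat.le_add_right k c) i (hu k i))
    have e : (P i).x t - y i = ((P i).x (u k) - y i) - (P i).x (u k - t) := by
      rw [map_sub]; ring
    rw [e]
    exact Ideal.sub_mem _ h2 h1
  have hH : IsHausdorff (maximalIdeal (P i).O) (P i).O := inferInstance
  have := hH.haus' ((P i).x t - y i) (fun k => by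
    rw [SModEq.sub_mem, sub_zero, smul_eq_mul, Ideal.mul_top]
    exact hz k)
  exact sub_eq_zero.mp this

end Limit

section Trace

variable {𝒪 : Type} [CommRing 𝒪] {T : Type} [CommRing T] [IsLocalRing T] [Algebra 𝒪 T]
  [IsAdicComplete (maximalIdeal T) T]
  {N : ℕ} [NeZero N] {S : Finset ℕ}

/-- **TRACE**: the traces of the representations at the points come from `T`. -/
theorem exists_trace {p : ℕ} (hp0 : p ≠ 0) (hpT : (p : T) ∈ maximalIdeal T)
    (hNS : ∀ q : ℕ, q.Prime → q ∣ N → q ∈ S)
    (π : CuspForm.heckeAlgebra N 2 (↑S : Set ℕ) →+* T) {r : ℕ}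
    (P : Fin r → PtRep 𝒪 T) (c : ℕ)
    (hsep : ∀ (n : ℕ) (t : T), (∀ i, (P i).x t ∈ Ideal.span {((p : (P i).O)) ^ (n + c)}) →
      t ∈ Ideal.span {((p : T)) ^ n})
    (hfrob : ∀ i, HasFrobCharpoly ((P i).x.comp π) (P i).ρ) (g : GalQ) :
    ∃ t : T, ∀ i, (P i).x t = LinearMap.trace (P i).O (P i).ρ.V ((P i).ρ.ρ g) := by
  classical
  refine exists_of_approx hpT P c hsep _ fun k => ?_
  -- for every `i` a level and a field
  have hlev : ∀ i, ∃ M : ℕ, maximalIdeal (P i).O ^ M ≤ Ideal.span {((p : (P i).O)) ^ k} :=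
    fun i => exists_pow_le_span (pow_ne_zero k (Nat.cast_ne_zero.mpr hp0))
  choose M hM using hlev
  have hfield := fun i => exists_field_approx ((P i).x.comp π) (P i).ρ (hfrob i) (M i)
  choose L hLfin hL using hfield
  haveI : ∀ i, FiniteDimensional ℚ (L i) := hLfin
  obtain ⟨D⟩ := FrobData.nonempty (N := N) (S := S) Fermat.Agent.Lib.FrobDensity.stmt_FD hNS
    (⨆ i, L i) inferInstance g
  refine ⟨π D.tr, fun i => ?_⟩
  have h1 := (hL i g (D.restrict (le_iSup L i))).1
  have h2 : (P i).x (π D.tr) - LinearMap.trace (P i).O (P i).ρ.V ((P i).ρ.ρ g) =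
      -(LinearMap.trace (P i).O (P i).ρ.V ((P i).ρ.ρ g) - ((P i).x.comp π) D.tr) := by
    rw [RingHom.comp_apply]; ring
  rw [h2]
  exact Ideal.neg_mem_iff _ |>.mpr (hM i h1)

end Trace

end Fermat.Agent.S59.Datum.H7
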