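/-
S59 package DATUM, assembly (helper7): the Hecke–Galois datum over the full local Hecke ring.

`exists_rep` : Carayol descent — from the representations at the points of `T` (S30) to a
representation over `T` with the right Frobenius characteristic polynomials, cyclotomic
determinant and residual representation `ρbar`.
`stmt_DATUM_of` : the datum.
-/
import Fermat.Agent.S59.Datum.Defs2
import Fermat.Agent.S59.Datum.H7_Trace
import Fermat.Agent.R.H2_SepT
import Fermat.Agent.R.H58_HeckeReduced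

set_option autoImplicit false
set_option linter.style.haveILetI false
set_option linter.unusedSectionVars false

open Polynomial IsLocalRing CuspForm

namespace Fermat.Agent.S59.Datum.H7

open Fermat.Agent.R

section Aux

/-- Trace and determinant of a `2 × 2` matrix from its characteristic polynomial. -/
theorem trace_det_of_charpoly {A : Type*} [CommRing A] [Nontrivial A]
    (M : Matrix (Fin 2) (Fin 2) A) (t d : A)
    (h : M.charpoly = X ^ 2 - C t * X + C d) : M.trace = t ∧ M.det = d := by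
  rw [Matrix.charpoly_fin_two] at h
  have h1 := congrArg (fun q => q.coeff 1) h
  have h0 := congrArg (fun q => q.coeff 0) h
  simp only [coeff_add, coeff_sub, coeff_X_pow, coeff_C_mul, coeff_X, coeff_C] at h1 h0
  norm_num at h1 h0
  exact ⟨h1, h0⟩

/-- In a local ring with an odd prime in the maximal ideal, `2` is a unit. -/
theorem isUnit_two_of_odd {A : Type*} [CommRing A] [IsLocalRing A] {p : ℕ} (hp : p.Prime)
    (hp2 : p ≠ 2) (hpA : (p : A) ∈ maximalIdeal A) : IsUnit (2 : A) := by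
  by_contra h2
  have h2m : (2 : A) ∈ maximalIdeal A := (IsLocalRing.mem_maximalIdeal _).2 h2
  obtain ⟨k, hk⟩ := hp.eq_two_or_odd'.resolve_left hp2
  have h1 : (1 : A) = (p : A) - 2 * (k : A) := by
    rw [hk]; push_cast; ring
  have : (1 : A) ∈ maximalIdeal A := by
    rw [h1]
    exact Ideal.sub_mem _ hpA (Ideal.mul_mem_right _ _ h2m)
  exact (Ideal.ne_top_iff_one _).1 (IsLocalRing.maximalIdeal.isMaximal A).ne_top this

/-- Trace and determinant of the conjugate by `diag(1, s⁻¹)`. -/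
theorem trace_det_conj {A : Type*} [CommRing A] (M : Matrix (Fin 2) (Fin 2) A) (s : Aˣ) :
    (Matrix.of ![![M 0 0, M 0 1 * (s : A)], ![M 1 0 * ((s⁻¹ : Aˣ) : A), M 1 1]]).trace =
        M.trace ∧
      (Matrix.of ![![M 0 0, M 0 1 * (s : A)], ![M 1 0 * ((s⁻¹ : Aˣ) : A), M 1 1]]).det =
        M.det := by
  constructor
  · simp [Matrix.trace_fin_two]
  · simp only [Matrix.det_fin_two, Matrix.of_apply, Matrix.cons_val_zero, Matrix.cons_val_one,
      Matrix.cons_val']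
    have hs : (s : A) * ((s⁻¹ : Aˣ) : A) = 1 := s.mul_inv
    linear_combination (- M 0 1 * M 1 0) * hs

end Aux

section Rep

variable (𝒪 : Type) [CommRing 𝒪] [IsDomain 𝒪] [IsDiscreteValuationRing 𝒪]
  [IsAdicComplete (maximalIdeal 𝒪) 𝒪] [Finite (ResidueField 𝒪)] [CharZero 𝒪]
  (p : ℕ) [Fact p.Prime]
  (N : ℕ) [NeZero N] (S : Finset ℕ)
  (T : Type) [CommRing T] [IsLocalRing T] [Algebra 𝒪 T] [IsLocalHom (algebraMap 𝒪 T)]
  [Module.Finite 𝒪 T] [Module.Free 𝒪 T] [IsAdicComplete (maximalIdeal T) T]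

/-- `p` lies in the maximal ideal at every point. -/
theorem PtRep.natCast_mem (hpT : (p : T) ∈ maximalIdeal T) (P : PtRep 𝒪 T) :
    (p : P.O) ∈ maximalIdeal P.O := by
  rw [IsLocalRing.mem_maximalIdeal, mem_nonunits_iff]
  intro hu
  have h1 : IsUnit (P.x (p : T)) := by rwa [map_natCast]
  haveI := P.isLocalHom
  exact (IsLocalRing.mem_maximalIdeal _).1 hpT (isUnit_of_map_unit P.x _ h1)

/-- Uniform separation in terms of the powers of the maximal ideals. -/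
theorem exists_level (hp0 : p ≠ 0) {r : ℕ} (P : Fin r → PtRep 𝒪 T) (c : ℕ)
    (hsep : ∀ (n : ℕ) (t : T), (∀ i, (P i).x t ∈ Ideal.span {((p : (P i).O)) ^ (n + c)}) →
      t ∈ Ideal.span {((p : T)) ^ n}) (n : ℕ) :
    ∃ m : ℕ, ∀ t : T, (∀ i, (P i).x t ∈ maximalIdeal (P i).O ^ m) →
      t ∈ Ideal.span {((p : T)) ^ n} := by
  classical
  have hlev : ∀ i, ∃ M : ℕ, maximalIdeal (P i).O ^ M ≤ Ideal.span {((p : (P i).O)) ^ (n + c)} :=
    fun i => exists_pow_le_span (pow_ne_zero _ (Nat.cast_ne_zero.mpr hp0))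
  choose M hM using hlev
  refine ⟨Finset.univ.sup M, fun t ht => hsep n t fun i => hM i ?_⟩
  exact Ideal.pow_le_pow_right (Finset.le_sup (Finset.mem_univ i)) (ht i)

/-- The Frobenius characteristic polynomials of the residual representation. -/
theorem residual_charpoly {A : Type} [CommRing A] [IsLocalRing A] [Algebra 𝒪 A]
    [IsLocalHom (algebraMap 𝒪 A)]
    (ψ : CuspForm.heckeAlgebra N 2 (↑S : Set ℕ) →+* A)
    (θ : CuspForm.heckeAlgebra N 2 (↑S : Set ℕ) →+* ResidueField 𝒪)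
    (hψ : ∀ t : CuspForm.heckeAlgebra N 2 (↑S : Set ℕ),
      residue A (ψ t) = ResidueField.map (algebraMap 𝒪 A) (θ t))
    (ρ : GaloisRepAdic A) (hρ : HasFrobCharpoly ψ ρ)
    (ρbar : ResidualGaloisRep (ResidueField 𝒪)) (hθ : FrobHyp ρbar N S θ)
    (hNS : ∀ q : ℕ, q.Prime → q ∣ N → q ∈ S)
    (ℓ : ℕ) (hℓ : ℓ.Prime) (hℓS : ℓ ∉ S) (B : ValuationSubring (AlgebraicClosure ℚ))
    (hB : B.LiesOverPrime ℓ) (σ : GalQ) (hσ : B.IsFrobeniusAt σ ℓ) :
    LinearMap.charpoly (ρ.residual.ρ σ) =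
      (LinearMap.charpoly (ρbar.ρ σ)).map (ResidueField.map (algebraMap 𝒪 A)) := by
  have hℓN : ¬ ℓ ∣ N := fun h => hℓS (hNS ℓ hℓ h)
  have hℓS' : ℓ ∉ (↑S : Set ℕ) := by simpa using hℓS
  have h1 : LinearMap.charpoly (ρ.residual.ρ σ) =
      (LinearMap.charpoly (ρ.ρ σ)).map (algebraMap A (ResidueField A)) :=
    LinearMap.charpoly_baseChange (ρ.ρ σ) (ResidueField A)
  rw [h1, hρ ℓ hℓ hℓN hℓS' B hB σ hσ, hθ ℓ hℓ hℓN hℓS' B hB σ hσ,
    IsLocalRing.ResidueField.algebraMap_eq]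
  simp only [Polynomial.map_add, Polynomial.map_sub, Polynomial.map_mul, Polynomial.map_pow,
    Polynomial.map_X, Polynomial.map_C, map_natCast, hψ, Polynomial.map_natCast]

/-- **Carayol descent**: the representation over `T`. -/
theorem exists_rep (hS30 : Stmt_S30) (hAdapt : Stmt_Adapt) (hDetCyc : Stmt_DetCyc)
    (hResIrr : Stmt_ResIrr) (hCont : Stmt_Cont) (hOdd : Stmt_Odd) (hUnit : Stmt_Unit)
    [IsReduced T] (hp2 : p ≠ 2) (hp𝒪 : (p : 𝒪) ∈ maximalIdeal 𝒪) (hpS : p ∈ S)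
    (hNS : ∀ q : ℕ, q.Prime → q ∣ N → q ∈ S)
    (π : CuspForm.heckeAlgebra N 2 (↑S : Set ℕ) →+* T)
    (θ : CuspForm.heckeAlgebra N 2 (↑S : Set ℕ) →+* ResidueField 𝒪)
    (hπ : ∀ t : CuspForm.heckeAlgebra N 2 (↑S : Set ℕ),
      residue T (π t) = ResidueField.map (algebraMap 𝒪 T) (θ t))
    (ρbar : ResidualGaloisRep (ResidueField 𝒪)) (habs : ρbar.IsAbsolutelyIrreducible)
    (hθ : FrobHyp ρbar N S θ) :
    ∃ ρ : GaloisRepAdic T, HasFrobCharpoly π ρ ∧ ρ.residual.IsAbsolutelyIrreducible ∧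
      ρ.DetIsCyclotomic p ∧
      ρ.residual.IsEquiv (ρbar.baseChangeAlong (ResidueField.map (algebraMap 𝒪 T))) := by
  classical
  have hp : p.Prime := Fact.out
  have hpT := natCast_mem_maximalIdeal_of_algebra 𝒪 p T hp𝒪
  obtain ⟨r, P, c, hinj, hsep, hfrob⟩ := exists_points_aux 𝒪 p N S T hS30 hp𝒪 hpS hNS π
  have hpO : ∀ i, (p : (P i).O) ∈ maximalIdeal (P i).O :=
    fun i => PtRep.natCast_mem 𝒪 p T hpT (P i)
  haveI hloc : ∀ i, IsLocalHom (P i).x := fun i => (P i).isLocalHom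
  -- determinants at Frobenius elements
  have hℓN : ∀ ℓ : ℕ, ℓ.Prime → ℓ ∉ S → ¬ ℓ ∣ N := fun ℓ hℓ hℓS h => hℓS (hNS ℓ hℓ h)
  have hdetF : ∀ i, ∀ ℓ : ℕ, ℓ.Prime → ℓ ∉ S → ∀ B : ValuationSubring (AlgebraicClosure ℚ),
      B.LiesOverPrime ℓ → ∀ σ : GalQ, B.IsFrobeniusAt σ ℓ →
        LinearMap.det ((P i).ρ.ρ σ) = (ℓ : (P i).O) := by
    intro i ℓ hℓ hℓS B hB σ hσ
    rw [LinearMap.det_eq_sign_charpoly_coeff, (P i).ρ.finrank_eq,
      hfrob i ℓ hℓ (hℓN ℓ hℓ hℓS) (by simpa using hℓS) B hB σ hσ]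
    simp [coeff_X]
  have hlev : ∀ i, ∀ n : ℕ, ∃ m : ℕ,
      maximalIdeal (P i).O ^ m ≤ Ideal.span {((p ^ n : ℕ) : (P i).O)} := fun i n =>
    exists_pow_le_span (Nat.cast_ne_zero.mpr (pow_ne_zero n hp.ne_zero))
  have hcyc : ∀ i, (P i).ρ.DetIsCyclotomic p := fun i =>
    hDetCyc (P i).O p (hpO i) (hlev i) (P i).ρ S (hdetF i)
  obtain ⟨cc, hcc, hodd⟩ := hOdd
  have hdetc : ∀ i, LinearMap.det ((P i).ρ.ρ cc) = -1 := fun i => hodd (P i).O p (P i).ρ (hcyc i)
  -- adapted bases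
  have hb : ∀ i, ∃ b : Module.Basis (Fin 2) (P i).O (P i).ρ.V,
      IsSign (LinearMap.toMatrix b b ((P i).ρ.ρ cc)) := fun i =>
    hAdapt (P i).O (isUnit_two_of_odd hp hp2 (hpO i)) (P i).ρ.V (P i).ρ.finrank_eq
      ((P i).ρ.ρ cc) (by rw [← map_mul, hcc, map_one]) (hdetc i)
  choose b hbs using hb
  -- the matrices
  let M : ∀ i, GalQ →* Matrix (Fin 2) (Fin 2) (P i).O := fun i =>
    ((LinearMap.toMatrixAlgEquiv (b i) :
      Module.End (P i).O (P i).ρ.V →* Matrix (Fin 2) (Fin 2) (P i).O)).comp (P i).ρ.ρ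
  have hM : ∀ i σ, M i σ = LinearMap.toMatrix (b i) (b i) ((P i).ρ.ρ σ) := fun i σ => rfl
  -- the trace function
  have htr' : ∀ g : GalQ, ∃ t : T, ∀ i,
      (P i).x t = LinearMap.trace (P i).O (P i).ρ.V ((P i).ρ.ρ g) :=
    fun g => exists_trace hp.ne_zero hpT hNS π P c hsep hfrob g
  choose tr htr using htr'
  have htrM : ∀ i g, (M i g).trace = (P i).x (tr g) := by
    intro i g
    rw [hM, htr, LinearMap.trace_eq_matrix_trace (P i).O (b i)]
  -- there is a point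
  have hr : 0 < r := by
    rcases Nat.eq_zero_or_pos r with h0 | h0
    · subst h0
      exact absurd (hinj 1 fun i => i.elim0) one_ne_zero
    · exact h0
  let i₀ : Fin r := ⟨0, hr⟩
  -- the algebra maps to the points are local
  have hlocO : ∀ i, IsLocalHom (algebraMap 𝒪 (P i).O) := by
    intro i
    have h1 : algebraMap 𝒪 (P i).O = ((P i).x).comp (algebraMap 𝒪 T) :=
      RingHom.ext fun a => ((P i).hxO a).symm
    rw [h1]
    exact RingHom.isLocalHom_comp _ _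
  haveI := hlocO i₀
  -- residual irreducibility at the point `i₀`
  have hψ₀ : ∀ t : CuspForm.heckeAlgebra N 2 (↑S : Set ℕ),
      residue (P i₀).O (((P i₀).x.comp π) t) =
        ResidueField.map (algebraMap 𝒪 (P i₀).O) (θ t) := by
    intro t
    obtain ⟨a, ha⟩ := IsLocalRing.residue_surjective (θ t)
    have h1 : residue (P i₀).O ((P i₀).x (π t)) =
        ResidueField.map (P i₀).x (residue T (π t)) := (ResidueField.map_residue _ _).symm
    rw [RingHom.comp_apply, h1, hπ, ← ha, ResidueField.map_residue, ResidueField.map_residue,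
      ResidueField.map_residue, (P i₀).hxO]
  have hirr₀ : (P i₀).ρ.residual.IsAbsolutelyIrreducible :=
    (hResIrr _ _ (ResidueField.map (algebraMap 𝒪 (P i₀).O)) ρbar (P i₀).ρ.residual S habs
      (fun ℓ hℓ hℓS B hB σ hσ => residual_charpoly 𝒪 N S ((P i₀).x.comp π) θ hψ₀ (P i₀).ρ
        (hfrob i₀) ρbar hθ hNS ℓ hℓ hℓS B hB σ hσ)).1
  obtain ⟨g, h, hg, hh⟩ := hUnit (P i₀).O (P i₀).ρ hirr₀ (b i₀)
  -- the unit `u`
  have h2T : IsUnit (2 : T) := isUnit_two_of_odd hp hp2 hpT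
  obtain ⟨w2, hw2⟩ := h2T.exists_right_inv
  let u : T := w2 * w2 * (tr (g * h) - tr (g * cc * h) + tr (cc * g * h) - tr (cc * g * cc * h))
  have hu : ∀ i, M i g 0 1 * M i h 1 0 = (P i).x u := by
    intro i
    have h1 := entry01_mul_entry10_eq (M i cc) (M i g) (M i h) (hbs i)
    have h2 : ((P i).x w2) * 2 = 1 := by
      have := congrArg (P i).x hw2
      rw [map_mul, map_ofNat, map_one] at this
      rw [mul_comm]; exact this
    simp only [u, map_mul, map_sub, map_add, ← htrM, map_mul (M i)]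
    rw [h1]
    linear_combination (-(M i g 0 1 * M i h 1 0) * ((P i).x w2 * 2 + 1)) * h2
  have huu : IsUnit u := by
    have h1 : IsUnit ((P i₀).x u) := by
      rw [← hu i₀]
      exact (hg.mul hh)
    exact isUnit_of_map_unit (P i₀).x u h1
  obtain ⟨R, s, hRtr, hRx⟩ := exists_descent (fun i => (P i).x) hinj h2T M tr htrM cc
    (fun i => hbs i) g h u huu hu
  -- separation
  have hkey : ∀ n : ℕ, ∃ m : ℕ, ∀ t : T, (∀ i, (P i).x t ∈ maximalIdeal (P i).O ^ m) →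
      t ∈ Ideal.span {((p : T)) ^ n} := exists_level 𝒪 p T hp.ne_zero P c hsep
  have hsepT : ∀ n : ℕ, ∃ m : ℕ, ∀ t : T, (∀ i, (P i).x t ∈ maximalIdeal (P i).O ^ m) →
      t ∈ maximalIdeal T ^ n := by
    intro n
    obtain ⟨m, hm⟩ := hkey n
    exact ⟨m, fun t ht => span_pow_le_maximalIdeal_pow hpT n (hm t ht)⟩
  -- the representation
  have hcont : GaloisActionIsAdicContinuous T (matRep R) :=
    hCont T r (fun i => (P i).O) (fun i => (P i).x) (fun i => (P i).ρ) b M s R hsepT hM hRx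
  let ρT : GaloisRepAdic T :=
    { V := Fin 2 → T
      finrank_eq := by rw [Module.finrank_fin_fun]
      ρ := matRep R
      isAdicContinuous := hcont }
  -- Frobenius characteristic polynomials
  have hfrobT : HasFrobCharpoly π ρT := by
    intro ℓ hℓ hℓN hℓS B hB σ hσ
    have h1 : LinearMap.charpoly (ρT.ρ σ) = (R σ).charpoly := Matrix.charpoly_toLin' (R σ)
    have hMi : ∀ i, (M i σ).trace = (P i).x (π (heckeAlgebra.T hℓ hℓN hℓS)) ∧
        (M i σ).det = (ℓ : (P i).O) := by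
      intro i
      have h2 := hfrob i ℓ hℓ hℓN hℓS B hB σ hσ
      rw [← LinearMap.charpoly_toMatrix ((P i).ρ.ρ σ) (b i)] at h2
      exact trace_det_of_charpoly _ _ _ h2
    have htrace : (R σ).trace = π (heckeAlgebra.T hℓ hℓN hℓS) := by
      rw [← sub_eq_zero]
      refine hinj _ fun i => ?_
      rw [map_sub, hRtr, ← htrM, sub_eq_zero]
      exact (hMi i).1
    have hdet : (R σ).det = (ℓ : T) := by
      rw [← sub_eq_zero]
      refine hinj _ fun i => ?_
      rw [map_sub, RingHom.map_det, RingHom.mapMatrix_apply, hRx i σ,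
        (trace_det_conj (M i σ) (s i)).2, (hMi i).2, map_natCast, sub_self]
    rw [h1, Matrix.charpoly_fin_two, htrace, hdet]
  -- the residual representation
  obtain ⟨hirrT, heqT⟩ := hResIrr _ _ (ResidueField.map (algebraMap 𝒪 T)) ρbar ρT.residual S habs
    (fun ℓ hℓ hℓS B hB σ hσ => residual_charpoly 𝒪 N S π θ hπ ρT hfrobT ρbar hθ hNS
      ℓ hℓ hℓS B hB σ hσ)
  -- the determinant
  have hadicT : ∀ n : ℕ, ∃ m : ℕ, maximalIdeal T ^ m ≤ Ideal.span {((p ^ n : ℕ) : T)} := by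
    intro n
    obtain ⟨m, hm⟩ := hkey n
    refine ⟨m, fun t ht => ?_⟩
    rw [Nat.cast_pow]
    exact hm t fun i => map_mem_maximalIdeal_pow (P i).x m ht
  have hdetT : ∀ ℓ : ℕ, ℓ.Prime → ℓ ∉ S → ∀ B : ValuationSubring (AlgebraicClosure ℚ),
      B.LiesOverPrime ℓ → ∀ σ : GalQ, B.IsFrobeniusAt σ ℓ →
        LinearMap.det (ρT.ρ σ) = (ℓ : T) := by
    intro ℓ hℓ hℓS B hB σ hσ
    rw [LinearMap.det_eq_sign_charpoly_coeff, ρT.finrank_eq,
      hfrobT ℓ hℓ (hℓN ℓ hℓ hℓS) (by simpa using hℓS) B hB σ hσ]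
    simp [coeff_X]
  exact ⟨ρT, hfrobT, hirrT, hDetCyc T p hpT hadicT ρT S hdetT, heqT⟩

end Rep

/-- **DATUM** from S30 and the leaves. -/
theorem stmt_DATUM_of (hS30 : Stmt_S30) (hRing : Stmt_Ring) (hAdapt : Stmt_Adapt)
    (hDetCyc : Stmt_DetCyc) (hResIrr : Stmt_ResIrr) (hCont : Stmt_Cont) (hOdd : Stmt_Odd)
    (hUnit : Stmt_Unit) : Stmt_DATUM := by
  intro 𝒪 _ _ _ _ _ _ p _ hp2 hp𝒪 N _ _ S hpS hNS ρbar habs θ hθ
  obtain ⟨h1, h2, h3, h4⟩ := hRing 𝒪 N (↑S : Set ℕ) θ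
  haveI : Module.Finite ℤ (CuspForm.heckeAlgebra N 2 (↑S : Set ℕ)) :=
    Fermat.Agent.S22.result N 2 (↑S : Set ℕ)
  haveI : IsReduced (CuspForm.heckeAlgebra N 2 (↑S : Set ℕ)) :=
    H58.stmt_HeckeReduced N (↑S : Set ℕ) hNS
  haveI : IsReduced (CuspForm.heckeLocal N (↑S : Set ℕ) 𝒪 θ) :=
    H2.isReduced_of_flat_of_adjoin_eq_top (CuspForm.heckeAlgebra N 2 (↑S : Set ℕ)) 𝒪
      (CuspForm.heckeLocal N (↑S : Set ℕ) 𝒪 θ) (CuspForm.heckeLocal.π N (↑S : Set ℕ) 𝒪 θ) h2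
  obtain ⟨ρ, hfrob, hirr, hcyc, heq⟩ := exists_rep 𝒪 p N S (CuspForm.heckeLocal N (↑S : Set ℕ) 𝒪 θ)
    hS30 hAdapt hDetCyc hResIrr hCont hOdd hUnit hp2 hp𝒪 hpS hNS
    (CuspForm.heckeLocal.π N (↑S : Set ℕ) 𝒪 θ) θ h1 ρbar habs hθ
  exact ⟨{ π := CuspForm.heckeLocal.π N (↑S : Set ℕ) 𝒪 θ
           residue_π := h1
           adjoin_range_π := h2
           exists_point := h3
           residue_surjective := h4
           ρ := ρ
           charpoly_frob := hfrob
           residual_absIrr := hirr }, rfl, hcyc, heq⟩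

end Fermat.Agent.S59.Datum.H7

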