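import Fermat.Agent.S59.Datum.Defs
import Fermat.Agent.Tate.H4_Det

/-!
# S59 package DATUM, leaf DETCYC (helper41)

`stmt_DetCyc : Stmt_DetCyc`: a representation over a local ring `A` whose topology is the `p`-adic
one, with `det ρ(Frob_ℓ) = ℓ` for all primes `ℓ` outside a finite set, has cyclotomic
determinant.  (Frobenius density + action of Frobenius on roots of unity + continuity, as in
`Tate.H4.stmt_T2_of`.)
-/

set_option autoImplicit false

namespace Fermat.Agent.S59.Datum.H41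

open Polynomial IsLocalRing Fermat.Agent.S59.Datum

/-- **DETCYC** from Frobenius density and the action of Frobenius on roots of unity. -/
theorem stmt_DetCyc_of (hFD : Fermat.Agent.R.Stmt_FD) (hFC : Fermat.Agent.R.Stmt_FrobCyc) :
    Stmt_DetCyc := by
  classical
  intro A _ _ p _ hpA hadic ρ S hdet
  have hp : p.Prime := Fact.out
  refine ⟨hpA, ?_⟩
  intro n σ a ha
  -- the set of excluded primes
  set S' : Finset ℕ := insert p S with hS'
  -- continuity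
  obtain ⟨m, hm⟩ := hadic n
  obtain ⟨L₀, hL₀, hcont⟩ := ρ.isAdicContinuous m
  -- a primitive `p^n`-th root of unity
  have hpn : p ^ n ≠ 0 := pow_ne_zero _ hp.ne_zero
  have : NeZero (p ^ n) := ⟨hpn⟩
  have : NeZero ((p ^ n : ℕ) : AlgebraicClosure ℚ) := ⟨by exact_mod_cast hpn⟩
  obtain ⟨ζ, hζ⟩ := HasEnoughRootsOfUnity.exists_primitiveRoot (AlgebraicClosure ℚ) (p ^ n)
  -- the field `L`
  have hζint : IsIntegral ℚ ζ := (hζ.isIntegral (Nat.pos_of_ne_zero hpn)).tower_top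
  have : FiniteDimensional ℚ (IntermediateField.adjoin ℚ {ζ}) :=
    IntermediateField.adjoin.finiteDimensional hζint
  have : FiniteDimensional ℚ L₀ := hL₀
  set L : IntermediateField ℚ (AlgebraicClosure ℚ) := L₀ ⊔ IntermediateField.adjoin ℚ {ζ} with hL
  have hLfd : FiniteDimensional ℚ L := IntermediateField.finiteDimensional_sup _ _
  obtain ⟨ℓ, B, φ, j, hℓ, hℓS, hB, hφ, hagree⟩ := hFD S' L hLfd σ
  have hℓp : ℓ ≠ p := fun h => hℓS (by rw [hS', h]; exact Finset.mem_insert_self _ _)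
  have hℓS0 : ℓ ∉ S := fun h => hℓS (by rw [hS']; exact Finset.mem_insert_of_mem h)
  -- `τ = (φ^j)⁻¹ σ` fixes `L`
  set τ : GalQ := (φ ^ j)⁻¹ * σ with hτ
  have hτfix : ∀ x ∈ L₀, τ x = x := by
    intro x hx
    have hxL : x ∈ L := (le_sup_left : L₀ ≤ L) hx
    rw [hτ, AlgEquiv.mul_apply, ← hagree x hxL]
    exact (φ ^ j).symm_apply_apply x
  have hσeq : σ = φ ^ j * τ := by rw [hτ, mul_inv_cancel_left]
  -- determinants
  have hdetφ : LinearMap.det (ρ.ρ φ) = (ℓ : A) := hdet ℓ hℓ hℓS0 B hB φ hφ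
  have hdetτ : LinearMap.det (ρ.ρ τ) - 1 ∈ Ideal.span {((p ^ n : ℕ) : A)} :=
    hm (Fermat.Agent.Tate.H4.det_sub_one_mem (maximalIdeal A ^ m) (ρ.ρ τ) (hcont τ hτfix))
  have hdetσ : LinearMap.det (ρ.ρ σ) = (ℓ : A) ^ j * LinearMap.det (ρ.ρ τ) := by
    rw [hσeq, map_mul, map_pow, map_mul, map_pow, hdetφ]
  -- the congruence `a ≡ ℓ^j mod p^n`
  have hζL : ζ ∈ L :=
    (le_sup_right : IntermediateField.adjoin ℚ {ζ} ≤ L)
      (IntermediateField.subset_adjoin ℚ {ζ} (Set.mem_singleton ζ))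
  have hcop : (p ^ n).Coprime ℓ :=
    Nat.Coprime.pow_left n ((Nat.coprime_primes hp hℓ).2 (Ne.symm hℓp))
  have h1 : ζ ^ a = ζ ^ (ℓ ^ j) := by
    rw [← ha ζ hζ.pow_eq_one, ← hagree ζ hζL]
    exact Fermat.Agent.Tate.H4.frob_pow_apply_root hFC hℓ hB hφ hcop hζ.pow_eq_one j
  have hζ0 : ζ ≠ 0 := hζ.ne_zero hpn
  have h2 : a ≡ ℓ ^ j [MOD p ^ n] := by
    have h3 : (Units.mk0 ζ hζ0) ^ a = (Units.mk0 ζ hζ0) ^ (ℓ ^ j) := by
      ext
      simpa using h1
    have h4 : orderOf (Units.mk0 ζ hζ0) = p ^ n := by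
      rw [← orderOf_units, Units.val_mk0]
      exact hζ.eq_orderOf.symm
    rw [pow_eq_pow_iff_modEq, h4] at h3
    exact h3
  have h5 : ((ℓ : A) ^ j - (a : A)) ∈ Ideal.span {((p ^ n : ℕ) : A)} := by
    rw [Ideal.mem_span_singleton]
    have h6 : ((p ^ n : ℕ) : ℤ) ∣ ((ℓ ^ j : ℕ) : ℤ) - (a : ℤ) := (Nat.modEq_iff_dvd.1 h2)
    obtain ⟨c, hc⟩ := h6
    refine ⟨(c : A), ?_⟩
    have := congrArg (fun z : ℤ => (z : A)) hc
    push_cast at this ⊢
    exact this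
  -- conclusion
  have h7 : LinearMap.det (ρ.ρ σ) - (a : A) =
      (ℓ : A) ^ j * (LinearMap.det (ρ.ρ τ) - 1) + ((ℓ : A) ^ j - (a : A)) := by
    rw [hdetσ]; ring
  rw [h7]
  exact Ideal.add_mem _ (Ideal.mul_mem_left _ _ hdetτ) h5

/-- **DETCYC.** -/
theorem stmt_DetCyc : Stmt_DetCyc :=
  stmt_DetCyc_of Fermat.Agent.Lib.FrobDensity.stmt_FD Fermat.Agent.R.H89.stmt_FrobCyc

end Fermat.Agent.S59.Datum.H41
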