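import Fermat.Agent.S59.Datum.Defs2
import Fermat.Agent.S52.H97_CC

/-!
# S59 package DATUM, leaf ODD (helper41)

`stmt_Odd : Stmt_Odd`: a complex conjugation `c` (an involution of `ℚ̄` inverting every root of
unity) has `det ρ(c) = -1` for every representation `ρ` with cyclotomic determinant over a
noetherian local ring.  (`c μ = μ ^ (p^n - 1)` on `μ_{p^n}`, so `det ρ(c) + 1 ∈ (p^n) ⊆ 𝔪^n` for
all `n`; Krull's intersection theorem.)
-/

set_option autoImplicit false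

namespace Fermat.Agent.S59.Datum.H41

open Polynomial IsLocalRing Fermat.Agent.S59.Datum

/-- An automorphism inverting the `p`-power roots of unity has determinant `-1` in every
representation with cyclotomic determinant over a noetherian local ring. -/
theorem det_eq_neg_one_of_inv {A : Type} [CommRing A] [IsLocalRing A] [IsNoetherianRing A]
    (p : ℕ) [Fact p.Prime] (ρ : GaloisRepAdic A) (hρ : ρ.DetIsCyclotomic p)
    (c : AlgebraicClosure ℚ ≃ₐ[ℚ] AlgebraicClosure ℚ)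
    (hc : ∀ (z : AlgebraicClosure ℚ) (n : ℕ), 0 < n → z ^ n = 1 → c z = z⁻¹) :
    LinearMap.det (ρ.ρ c) = -1 := by
  have hp : p.Prime := Fact.out
  obtain ⟨hpA, hcyc⟩ := hρ
  have hmem : ∀ n : ℕ, LinearMap.det (ρ.ρ c) + 1 ∈ maximalIdeal A ^ n := by
    intro n
    have hpn : 0 < p ^ n := pow_pos hp.pos n
    have h1 : ∀ μ : AlgebraicClosure ℚ, μ ^ p ^ n = 1 → c μ = μ ^ (p ^ n - 1) := by
      intro μ hμ
      rw [hc μ (p ^ n) hpn hμ]
      have hμ0 : μ ≠ 0 := by
        rintro rfl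
        rw [zero_pow hpn.ne'] at hμ
        exact zero_ne_one hμ
      rw [eq_comm, ← mul_eq_one_iff_eq_inv₀ hμ0, ← pow_succ, Nat.sub_add_cancel hpn, hμ]
    have h2 := hcyc n c (p ^ n - 1) h1
    have h3 : ((p ^ n - 1 : ℕ) : A) = ((p ^ n : ℕ) : A) - 1 := by
      rw [Nat.cast_sub hpn, Nat.cast_one]
    have h4 : LinearMap.det (ρ.ρ c) + 1 ∈ Ideal.span {((p ^ n : ℕ) : A)} := by
      have h5 : LinearMap.det (ρ.ρ c) + 1 =
          (LinearMap.det (ρ.ρ c) - ((p ^ n - 1 : ℕ) : A)) + ((p ^ n : ℕ) : A) := by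
        rw [h3]; ring
      rw [h5]
      exact Ideal.add_mem _ h2 (Ideal.subset_span (Set.mem_singleton _))
    have h6 : Ideal.span {((p ^ n : ℕ) : A)} ≤ maximalIdeal A ^ n := by
      rw [Ideal.span_singleton_le_iff_mem, Nat.cast_pow]
      exact Ideal.pow_mem_pow hpA n
    exact h6 h4
  have hbot : (⨅ n : ℕ, maximalIdeal A ^ n) = ⊥ :=
    Ideal.iInf_pow_eq_bot_of_isLocalRing _ (maximalIdeal.isMaximal A).ne_top
  have h7 : LinearMap.det (ρ.ρ c) + 1 ∈ (⨅ n : ℕ, maximalIdeal A ^ n) := by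
    rw [Ideal.mem_iInf]
    exact hmem
  rw [hbot, Ideal.mem_bot] at h7
  exact eq_neg_of_add_eq_zero_left h7

/-- **ODD**. -/
theorem stmt_Odd : Stmt_Odd := by
  obtain ⟨c, hc2, hc⟩ := Fermat.Agent.S52.H97.exists_complexConj
  exact ⟨c, hc2, fun A _ _ _ p _ ρ hρ => det_eq_neg_one_of_inv p ρ hρ c hc⟩

end Fermat.Agent.S59.Datum.H41
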