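import Fermat.Agent.S59.Datum.Defs2

set_option autoImplicit false
set_option linter.unusedSectionVars false

/-!
# S59, package DATUM (helper85): the leaf CONT

`stmt_Cont : Stmt_Cont` : the matrix representation obtained by descent from finitely many
adically continuous representations at (adically) separating points is adically continuous.
-/

noncomputable section

open IsLocalRing

namespace Fermat.Agent.S59.Datum.H85

/-- Coordinates of an element of `I • ⊤` lie in `I`. -/
theorem cont_repr_mem {A : Type*} [CommRing A] {V : Type*} [AddCommGroup V] [Module A V]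
    {ι : Type*} (b : Module.Basis ι A V) (I : Ideal A) {v : V}
    (hv : v ∈ (I • ⊤ : Submodule A V)) (i : ι) : b.repr v i ∈ I := by
  induction hv using Submodule.smul_induction_on' with
  | smul a ha w _ =>
    rw [map_smul, Finsupp.smul_apply, smul_eq_mul]
    exact I.mul_mem_right _ ha
  | add x _ y _ hx hy =>
    rw [map_add, Finsupp.add_apply]
    exact I.add_mem hx hy

/-- A vector with coordinates in `I` lies in `I • ⊤`. -/
theorem cont_mem_smul_top {A : Type*} [CommRing A] (I : Ideal A) (w : Fin 2 → A)
    (hw : ∀ j, w j ∈ I) : w ∈ (I • ⊤ : Submodule A (Fin 2 → A)) := by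
  have h : w = ∑ j, w j • (Pi.single j (1 : A) : Fin 2 → A) := by
    funext k
    rw [Finset.sum_apply, Fin.sum_univ_two]
    fin_cases k <;> simp
  rw [h]
  exact Submodule.sum_mem _ fun j _ => Submodule.smul_mem_smul (hw j) Submodule.mem_top

/-- **CONT.** -/
theorem stmt_Cont : Stmt_Cont := by
  intro T _ _ r O _ _ x ρ b M s R hsep hM hR n
  obtain ⟨m, hm⟩ := hsep n
  choose L hLfin hL using fun i => (ρ i).isAdicContinuous m
  have : ∀ i, FiniteDimensional ℚ (L i) := hLfin
  refine ⟨⨆ i, L i, IntermediateField.finiteDimensional_iSup_of_finite, fun σ hσ v => ?_⟩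
  -- entries of `M i σ - 1`
  have hent : ∀ i (j k : Fin 2), (M i σ - 1) j k ∈ maximalIdeal (O i) ^ m := by
    intro i j k
    have h1 : ∀ y ∈ L i, σ y = y := fun y hy => hσ y ((le_iSup L i) hy)
    have h2 := cont_repr_mem (b i) _ (hL i σ h1 (b i k)) j
    have h3 : (M i σ - 1) j k = (b i).repr ((ρ i).ρ σ (b i k) - b i k) j := by
      rw [Matrix.sub_apply, hM, LinearMap.toMatrix_apply, map_sub, Finsupp.sub_apply,
        Matrix.one_apply, Module.Basis.repr_self, Finsupp.single_apply]
      congr 1
      by_cases hjk : j = k
      · rw [if_pos hjk, if_pos hjk.symm]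
      · rw [if_neg hjk, if_neg (Ne.symm hjk)]
    rw [h3]
    exact h2
  -- entries of `R σ - 1`
  have hR1 : ∀ (j k : Fin 2), (R σ - 1) j k ∈ maximalIdeal T ^ n := by
    intro j k
    apply hm
    intro i
    have h4 : x i ((R σ - 1) j k) = ((R σ).map (x i)) j k - (1 : Matrix (Fin 2) (Fin 2) (O i)) j k := by
      rw [Matrix.sub_apply, map_sub, Matrix.map_apply, Matrix.one_apply, Matrix.one_apply]
      congr 1
      split_ifs
      · exact map_one _
      · exact map_zero _
    rw [h4, hR]
    have e00 := hent i 0 0
    have e01 := hent i 0 1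
    have e10 := hent i 1 0
    have e11 := hent i 1 1
    rw [Matrix.sub_apply, Matrix.one_apply] at e00 e01 e10 e11
    fin_cases j <;> fin_cases k
    · simpa using e00
    · have : M i σ 0 1 ∈ maximalIdeal (O i) ^ m := by simpa using e01
      simpa using this
    · have : M i σ 1 0 ∈ maximalIdeal (O i) ^ m := by simpa using e10
      simpa using this
    · simpa using e11
  -- conclusion
  apply cont_mem_smul_top
  intro j
  have h5 : (matRep R σ v - v) j = ∑ k, (R σ - 1) j k * v k := by
    rw [matRep_apply, Pi.sub_apply, Matrix.toLin'_apply, Matrix.mulVec, dotProduct,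
      Fin.sum_univ_two, Fin.sum_univ_two]
    simp only [Matrix.sub_apply, Matrix.one_apply]
    fin_cases j <;> simp <;> ring
  rw [h5]
  exact Ideal.sum_mem _ fun k _ => Ideal.mul_mem_right _ _ (hR1 j k)

end Fermat.Agent.S59.Datum.H85

end
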