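import Fermat.Agent.S59.Datum.Defs

set_option autoImplicit false
set_option linter.unusedSectionVars false
set_option linter.style.haveILetI false

/-!
# S59, package DATUM (helper85): the leaf RING

`stmt_Ring : Stmt_Ring` : the ring-theoretic fields of a Hecke–Galois datum for the full local
Hecke ring `T = heckeLocal N S 𝒪 θ`, `π = heckeLocal.π`.

`T` is the localisation of `B = 𝒪 ⊗ 𝕋` (`heckeBaseAlgebra`, identified with `𝒪 ⊗ heckeAlgebra` by
`latticeBaseChange`) at the maximal ideal `P` = kernel of the residual character; `B → T` is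
surjective because `B` is finite over the complete local ring `𝒪`.
-/

noncomputable section

open scoped TensorProduct
open IsLocalRing CuspForm

namespace Fermat.Agent.S59.Datum.H85

set_option synthInstance.maxHeartbeats 400000
set_option maxHeartbeats 1000000

variable (𝒪 : Type) [CommRing 𝒪] [IsDomain 𝒪] [IsDiscreteValuationRing 𝒪]
  [IsAdicComplete (maximalIdeal 𝒪) 𝒪]
  (N : ℕ) [NeZero N] [Fact (CuspForm.HasIntegralStructure N 2)] (S : Set ℕ)
  (θ : CuspForm.heckeAlgebra N 2 S →+* ResidueField 𝒪)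

/-- `B → T` is surjective. -/
theorem algebraMap_base_surjective :
    Function.Surjective
      (algebraMap (heckeBaseAlgebra N S 𝒪) (heckeLocal N S 𝒪 θ)) := by
  classical
  haveI : Module.Finite 𝒪 (heckeBaseAlgebra N S 𝒪) :=
    inferInstanceAs (Module.Finite 𝒪 (𝒪 ⊗[ℤ] ↥(heckeLatticeAlgebra N S)))
  haveI hPmax : (heckeLocalIdeal N S 𝒪 θ).IsMaximal := inferInstance
  obtain ⟨-, hbij, -, -⟩ :=
    Algebra.finite_maximalSpectrum_and_bijective_localization_of_module_finite (𝒪 := 𝒪)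
      (heckeBaseAlgebra N S 𝒪)
  have hsurj : Function.Surjective (algebraMap (heckeBaseAlgebra N S 𝒪)
      (Localization.AtPrime (heckeLocalIdeal N S 𝒪 θ))) := by
    intro z
    obtain ⟨b, hb⟩ := hbij.2 (Function.update 0
      (⟨heckeLocalIdeal N S 𝒪 θ, hPmax⟩ : MaximalSpectrum (heckeBaseAlgebra N S 𝒪)) z)
    refine ⟨b, ?_⟩
    have h := congrFun hb ⟨heckeLocalIdeal N S 𝒪 θ, hPmax⟩
    simp only [Function.update_self] at h
    exact h
  let e := IsLocalization.algEquiv (heckeLocalIdeal N S 𝒪 θ).primeCompl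
    (Localization.AtPrime (heckeLocalIdeal N S 𝒪 θ)) (heckeLocal N S 𝒪 θ)
  intro z
  obtain ⟨b, hb⟩ := hsurj (e.symm z)
  refine ⟨b, ?_⟩
  have h := congrArg e hb
  rw [e.apply_symm_apply] at h
  rw [← h]
  exact (e.commutes b).symm

/-- The composite `𝒪 ⊗ 𝕋 → B → T`. -/
def toLocal : (𝒪 ⊗[ℤ] ↥(heckeAlgebra N 2 S)) →+* heckeLocal N S 𝒪 θ :=
  (algebraMap (heckeBaseAlgebra N S 𝒪) (heckeLocal N S 𝒪 θ)).comp (latticeBaseChange N S 𝒪)

theorem toLocal_surjective : Function.Surjective (toLocal 𝒪 N S θ) :=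
  (algebraMap_base_surjective 𝒪 N S θ).comp (latticeBaseChange_surjective N S 𝒪)

theorem toLocal_algebraMap (a : 𝒪) :
    toLocal 𝒪 N S θ (algebraMap 𝒪 _ a) = algebraMap 𝒪 (heckeLocal N S 𝒪 θ) a := by
  unfold toLocal
  rw [RingHom.comp_apply, latticeBaseChange_algebraMap,
    ← IsScalarTower.algebraMap_apply 𝒪 (heckeBaseAlgebra N S 𝒪) (heckeLocal N S 𝒪 θ)]

theorem toLocal_includeRight (t : ↥(heckeAlgebra N 2 S)) :
    toLocal 𝒪 N S θ ((1 : 𝒪) ⊗ₜ[ℤ] t) = heckeLocal.π N S 𝒪 θ t := rfl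

theorem toLocal_mem_maximalIdeal {x : 𝒪 ⊗[ℤ] ↥(heckeAlgebra N 2 S)}
    (hx : residualCharacter N S 𝒪 θ x = 0) :
    toLocal 𝒪 N S θ x ∈ maximalIdeal (heckeLocal N S 𝒪 θ) := by
  unfold toLocal
  rw [RingHom.comp_apply,
    IsLocalization.AtPrime.to_map_mem_maximal_iff (heckeLocal N S 𝒪 θ) (heckeLocalIdeal N S 𝒪 θ)]
  exact Ideal.mem_map_of_mem _ ((mem_heckeCharKernel_iff N S 𝒪 θ x).mpr hx)

/-- The residue of `toLocal x` is the residual character. -/
theorem residue_toLocal (x : 𝒪 ⊗[ℤ] ↥(heckeAlgebra N 2 S)) (a : 𝒪)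
    (hxa : residualCharacter N S 𝒪 θ x = residue 𝒪 a) :
    residue (heckeLocal N S 𝒪 θ) (toLocal 𝒪 N S θ x)
      = residue (heckeLocal N S 𝒪 θ) (algebraMap 𝒪 (heckeLocal N S 𝒪 θ) a) := by
  rw [← sub_eq_zero, ← map_sub, residue_eq_zero_iff, ← toLocal_algebraMap, ← map_sub]
  apply toLocal_mem_maximalIdeal
  rw [map_sub, hxa, residualCharacter_algebraMap, sub_self]

/-- **RING.** -/
theorem stmt_Ring : Stmt_Ring := by
  intro 𝒪 _ _ _ _ N _ _ S θ
  refine ⟨?_, ?_, ?_, ?_⟩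
  · -- residue of `π`
    intro t
    obtain ⟨a, ha⟩ := residue_surjective (θ t)
    rw [← ha, ResidueField.map_residue, ← toLocal_includeRight]
    apply residue_toLocal
    rw [residualCharacter_tmul, map_one, one_mul, ha]
  · -- generation
    rw [eq_top_iff]
    have key : ∀ x : 𝒪 ⊗[ℤ] ↥(heckeAlgebra N 2 S),
        toLocal 𝒪 N S θ x ∈ Algebra.adjoin 𝒪 (Set.range (heckeLocal.π N S 𝒪 θ)) := by
      intro x
      induction x using TensorProduct.induction_on with
      | zero => rw [map_zero]; exact Subalgebra.zero_mem _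
      | tmul a t =>
        have h1 : (a ⊗ₜ[ℤ] t : 𝒪 ⊗[ℤ] ↥(heckeAlgebra N 2 S))
            = algebraMap 𝒪 _ a * ((1 : 𝒪) ⊗ₜ[ℤ] t) := by
          rw [Algebra.TensorProduct.algebraMap_apply, Algebra.algebraMap_self, RingHom.id_apply,
            Algebra.TensorProduct.tmul_mul_tmul, mul_one, one_mul]
        rw [h1, map_mul, toLocal_algebraMap, toLocal_includeRight]
        exact Subalgebra.mul_mem _ (Subalgebra.algebraMap_mem _ a)
          (Algebra.subset_adjoin ⟨t, rfl⟩)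
      | add x y hx hy => rw [map_add]; exact Subalgebra.add_mem _ hx hy
    intro z _
    obtain ⟨x, rfl⟩ := toLocal_surjective 𝒪 N S θ z
    exact key x
  · -- points
    intro χ hχ
    let Φ : (𝒪 ⊗[ℤ] ↥(heckeAlgebra N 2 S)) →ₐ[ℤ] 𝒪 :=
      Algebra.TensorProduct.productMap (AlgHom.id ℤ 𝒪) χ.toIntAlgHom
    have hΦ : ∀ (a : 𝒪) (t : ↥(heckeAlgebra N 2 S)), Φ (a ⊗ₜ[ℤ] t) = a * χ t := fun a t => rfl
    have hres : ∀ x : 𝒪 ⊗[ℤ] ↥(heckeAlgebra N 2 S),
        residue 𝒪 (Φ x) = residualCharacter N S 𝒪 θ x := by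
      intro x
      induction x using TensorProduct.induction_on with
      | zero => rw [map_zero, map_zero, map_zero]
      | tmul a t => rw [hΦ, map_mul, hχ, residualCharacter_tmul]
      | add x y hx hy => rw [map_add, map_add, map_add, hx, hy]
    let e : (𝒪 ⊗[ℤ] ↥(heckeAlgebra N 2 S)) ≃+* heckeBaseAlgebra N S 𝒪 :=
      RingEquiv.ofBijective (latticeBaseChange N S 𝒪)
        ⟨latticeBaseChange_injective N S 𝒪 Fact.out, latticeBaseChange_surjective N S 𝒪⟩
    have he : ∀ x, e x = latticeBaseChange N S 𝒪 x := fun x => rfl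
    let ΦB : heckeBaseAlgebra N S 𝒪 →+* 𝒪 := Φ.toRingHom.comp e.symm.toRingHom
    have hΦB : ∀ x, ΦB (latticeBaseChange N S 𝒪 x) = Φ x := by
      intro x
      show Φ (e.symm (latticeBaseChange N S 𝒪 x)) = Φ x
      rw [← he, e.symm_apply_apply]
    have hunit : ∀ y : heckeLocalSubmonoid N S 𝒪 θ, IsUnit (ΦB y) := by
      rintro ⟨y, x, hx, rfl⟩
      show IsUnit (ΦB (latticeBaseChange N S 𝒪 x))
      rw [hΦB]
      have hx' : residualCharacter N S 𝒪 θ x ≠ 0 := fun h =>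
        (Ideal.mem_primeCompl_iff.mp hx) ((mem_heckeCharKernel_iff N S 𝒪 θ x).mpr h)
      rw [← hres] at hx'
      by_contra hnu
      exact hx' ((residue_eq_zero_iff _).mpr ((mem_maximalIdeal _).mpr hnu))
    let ψ₀ : heckeLocal N S 𝒪 θ →+* 𝒪 := IsLocalization.lift hunit
    have hψ₀ : ∀ x, ψ₀ (toLocal 𝒪 N S θ x) = Φ x := by
      intro x
      unfold toLocal
      rw [RingHom.comp_apply]
      show (IsLocalization.lift hunit) (algebraMap _ _ (latticeBaseChange N S 𝒪 x)) = Φ x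
      rw [IsLocalization.lift_eq, hΦB]
    refine ⟨{ ψ₀ with commutes' := fun a => ?_ }, fun t => ?_⟩
    · show ψ₀ (algebraMap 𝒪 (heckeLocal N S 𝒪 θ) a) = a
      rw [← toLocal_algebraMap, hψ₀, Algebra.TensorProduct.algebraMap_apply,
        Algebra.algebraMap_self, RingHom.id_apply, hΦ, map_one, mul_one]
    · show ψ₀ (heckeLocal.π N S 𝒪 θ t) = χ t
      rw [← toLocal_includeRight, hψ₀, hΦ, one_mul]
  · -- residue field
    intro y
    obtain ⟨z, rfl⟩ := residue_surjective y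
    obtain ⟨x, rfl⟩ := toLocal_surjective 𝒪 N S θ z
    obtain ⟨a, ha⟩ := residue_surjective (residualCharacter N S 𝒪 θ x)
    exact ⟨a, (residue_toLocal 𝒪 N S θ x a ha.symm).symm⟩

end Fermat.Agent.S59.Datum.H85

end
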