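import Fermat.Agent.S59.Datum.Defs

/-!
# S59 package DATUM, leaf ADAPT (helper8)

`stmt_Adapt : Stmt_Adapt`: an involution `f` of determinant `-1` of a free module `V` of rank two
over a principal ideal domain in which `2` is a unit has matrix `diag(1, -1)` in a suitable basis.

Proof: `V = V⁺ ⊕ V⁻` with `V^± = ker (f ∓ 1)`; both are free (submodules of a free module over a
principal ideal domain); if one of them were zero, `f = ± 1` would have determinant `1`; hence
both have rank one, and generators of `V⁺`, `V⁻` form the basis.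
-/

set_option autoImplicit false

open Module

namespace Fermat.Agent.S59.Datum.H8

section Eig

variable {O : Type} [CommRing O] {V : Type} [AddCommGroup V] [Module O V]

/-- The `ε`-eigenspace of `f`. -/
def eig (f : Module.End O V) (ε : O) : Submodule O V :=
  LinearMap.ker (f - ε • (1 : Module.End O V))

theorem mem_eig (f : Module.End O V) (ε : O) (x : V) : x ∈ eig f ε ↔ f x = ε • x := by
  unfold eig
  rw [LinearMap.mem_ker, LinearMap.sub_apply, LinearMap.smul_apply, Module.End.one_apply,
    sub_eq_zero]

theorem isCompl_eig (h2 : IsUnit (2 : O)) (f : Module.End O V) (hf : f * f = 1) :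
    IsCompl (eig f 1) (eig f (-1)) := by
  obtain ⟨u, hu⟩ := h2
  have hff : ∀ x : V, f (f x) = x := fun x => by
    have := congrArg (fun g : Module.End O V => g x) hf
    simpa using this
  constructor
  · rw [Submodule.disjoint_def]
    intro x h1 h2
    rw [mem_eig] at h1 h2
    rw [one_smul] at h1
    rw [neg_one_smul, h1] at h2
    have h3 : (2 : O) • x = 0 := by
      rw [two_smul]
      nth_rewrite 1 [h2]
      exact neg_add_cancel x
    rw [← hu] at h3
    have := congrArg (fun y => (↑u⁻¹ : O) • y) h3
    simpa [smul_smul] using this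
  · rw [codisjoint_iff, eq_top_iff]
    intro x _
    rw [Submodule.mem_sup]
    refine ⟨(↑u⁻¹ : O) • (x + f x), ?_, (↑u⁻¹ : O) • (x - f x), ?_, ?_⟩
    · rw [mem_eig, one_smul, map_smul, map_add, hff, add_comm]
    · rw [mem_eig, neg_one_smul, map_smul, map_sub, hff, ← smul_neg, neg_sub]
    · rw [← smul_add, show x + f x + (x - f x) = (2 : O) • x by rw [two_smul]; abel, ← hu,
        smul_smul, Units.inv_mul, one_smul]

end Eig

/-- The bijection `Fin 2 ≃ Fin 1 ⊕ Fin 1`. -/
def finTwoSum : Fin 2 ≃ Fin 1 ⊕ Fin 1 where
  toFun i := if i = 0 then Sum.inl 0 else Sum.inr 0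
  invFun := Sum.elim (fun _ => 0) (fun _ => 1)
  left_inv i := by fin_cases i <;> rfl
  right_inv s := by
    rcases s with i | i
    · have : i = 0 := Subsingleton.elim _ _
      subst this
      rfl
    · have : i = 0 := Subsingleton.elim _ _
      subst this
      rfl

/-- **ADAPT**. -/
theorem stmt_Adapt : Stmt_Adapt := by
  intro O _ _ _ h2 V _ _ _ _ hrank f hf hdet
  have hc := isCompl_eig h2 f hf
  have h20 : (2 : O) ≠ 0 := h2.ne_zero
  have hne : (-1 : O) ≠ 1 := by
    intro h
    apply h20
    have : (1 : O) + 1 = 0 := by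
      nth_rewrite 1 [← h]
      exact neg_add_cancel 1
    rw [← this]
    norm_num
  let e := Submodule.prodEquivOfIsCompl _ _ hc
  have hsum : finrank O (eig f 1) + finrank O (eig f (-1)) = 2 := by
    rw [← Module.finrank_prod, e.finrank_eq, hrank]
  -- `V⁻ ≠ 0`
  have hm : finrank O (eig f (-1)) ≠ 0 := by
    intro h0
    have hbot : eig f (-1) = ⊥ := Submodule.finrank_eq_zero.mp h0
    have htop : eig f 1 = ⊤ := by
      have := hc.sup_eq_top
      rwa [hbot, sup_bot_eq] at this
    have hf1 : f = 1 := by
      ext x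
      have hx : x ∈ eig f 1 := by rw [htop]; trivial
      rw [mem_eig, one_smul] at hx
      rw [hx, Module.End.one_apply]
    rw [hf1, map_one] at hdet
    exact hne hdet.symm
  -- `V⁺ ≠ 0`
  have hp : finrank O (eig f 1) ≠ 0 := by
    intro h0
    have hbot : eig f 1 = ⊥ := Submodule.finrank_eq_zero.mp h0
    have htop : eig f (-1) = ⊤ := by
      have := hc.sup_eq_top
      rwa [hbot, bot_sup_eq] at this
    have hf1 : f = (-1 : O) • (1 : Module.End O V) := by
      ext x
      have hx : x ∈ eig f (-1) := by rw [htop]; trivial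
      rw [mem_eig] at hx
      rw [hx, LinearMap.smul_apply, Module.End.one_apply]
    rw [hf1, LinearMap.det_smul, map_one, hrank] at hdet
    apply hne
    rw [← hdet]
    ring
  have r1 : finrank O (eig f 1) = 1 := by omega
  have r2 : finrank O (eig f (-1)) = 1 := by omega
  let b1 := Module.finBasisOfFinrankEq O (eig f 1) r1
  let b2 := Module.finBasisOfFinrankEq O (eig f (-1)) r2
  let b : Module.Basis (Fin 2) O V := ((b1.prod b2).map e).reindex finTwoSum.symm
  have hb0 : b 0 = ((b1 0 : eig f 1) : V) := by
    show ((b1.prod b2).map e).reindex finTwoSum.symm 0 = _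
    rw [Module.Basis.reindex_apply, Equiv.symm_symm, Module.Basis.map_apply]
    show e ((b1.prod b2) (Sum.inl 0)) = _
    rw [Submodule.coe_prodEquivOfIsCompl', Module.Basis.prod_apply_inl_fst,
      Module.Basis.prod_apply_inl_snd, Submodule.coe_zero, add_zero]
  have hb1 : b 1 = ((b2 0 : eig f (-1)) : V) := by
    show ((b1.prod b2).map e).reindex finTwoSum.symm 1 = _
    rw [Module.Basis.reindex_apply, Equiv.symm_symm, Module.Basis.map_apply]
    show e ((b1.prod b2) (Sum.inr 0)) = _
    rw [Submodule.coe_prodEquivOfIsCompl', Module.Basis.prod_apply_inr_fst,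
      Module.Basis.prod_apply_inr_snd, Submodule.coe_zero, zero_add]
  have hf0 : f (b 0) = b 0 := by
    have := (mem_eig f 1 _).1 (b1 0).2
    rw [one_smul] at this
    rw [hb0]
    exact this
  have hf1 : f (b 1) = -b 1 := by
    have := (mem_eig f (-1) _).1 (b2 0).2
    rw [neg_one_smul] at this
    rw [hb1]
    exact this
  refine ⟨b, ⟨?_, ?_, ?_, ?_⟩⟩
  · rw [LinearMap.toMatrix_apply, hf0, Module.Basis.repr_self, Finsupp.single_eq_same]
  · rw [LinearMap.toMatrix_apply, hf1, map_neg, Module.Basis.repr_self, Finsupp.neg_apply,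
      Finsupp.single_eq_of_ne (by decide), neg_zero]
  · rw [LinearMap.toMatrix_apply, hf0, Module.Basis.repr_self,
      Finsupp.single_eq_of_ne (by decide)]
  · rw [LinearMap.toMatrix_apply, hf1, map_neg, Module.Basis.repr_self, Finsupp.neg_apply,
      Finsupp.single_eq_same]

end Fermat.Agent.S59.Datum.H8
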