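/-
S59 package DATUM, leaf UNIT (helper8): residually absolutely irreducible ⇒ some `(0,1)` entry and
some `(1,0)` entry (in any basis) are units.

Proof: by `R.H86.residual_absIrr_iff` (Burnside) there are four group elements whose flattened
`4 × 4` matrix has unit determinant; if all `(i, j)` entries were non-units, the column `(i, j)`
of that matrix would vanish modulo the maximal ideal.
-/
import Fermat.Agent.S59.Datum.Defs2
import Fermat.Agent.R.H86_Point

set_option autoImplicit false

open Polynomial IsLocalRing CuspForm
open scoped TensorProduct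

namespace Fermat.Agent.S59.Datum.H8

open Fermat.Agent.S53.Schur in
/-- Abstract core: in a two-dimensional residually absolutely irreducible representation, for
every basis `b` and all indices `i`, `j`, some entry `(i, j)` is a unit. -/
theorem exists_isUnit_entry (O : Type) [CommRing O] [IsLocalRing O] (ρ : GaloisRepAdic O)
    (hirr : ρ.residual.IsAbsolutelyIrreducible) (b : Module.Basis (Fin 2) O ρ.V)
    (i j : Fin 2) :
    ∃ g : GalQ, IsUnit (LinearMap.toMatrix b b (ρ.ρ g) i j) := by
  classical
  by_contra hcon
  push Not at hcon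
  obtain ⟨g, hg⟩ := (Fermat.Agent.R.H86.residual_absIrr_iff ρ b).1 hirr
  have hres : residue O (flat fun p => LinearMap.toMatrix b b (ρ.ρ (g p))).det = 0 := by
    rw [← det_flat_map]
    refine Matrix.det_eq_zero_of_column_eq_zero (i, j) fun p => ?_
    rw [flat_apply, Matrix.map_apply]
    exact (residue_eq_zero_iff _).2 ((mem_maximalIdeal _).2 (hcon (g p)))
  exact ((mem_maximalIdeal _).1 ((residue_eq_zero_iff _).1 hres)) hg

/-- **UNIT** (leaf of DATUM batch 2). -/
theorem stmt_Unit : Stmt_Unit := by
  intro O _ _ ρ hirr b
  obtain ⟨g, hg⟩ := exists_isUnit_entry O ρ hirr b 0 1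
  obtain ⟨h, hh⟩ := exists_isUnit_entry O ρ hirr b 1 0
  exact ⟨g, h, hg, hh⟩

end Fermat.Agent.S59.Datum.H8
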