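/-
S59 package DATUM (helper7): the Hecke–Galois datum over the full local Hecke ring, from S30.
(Unconditional version: `S59/Datum/Final.lean`.)

`stmt_DATUM_of_S30 : R.Stmt_S30 → Stmt_DATUM` — for every complete DVR `𝒪` (characteristic `0`, finite residue
field), odd prime `p ∈ 𝔪_𝒪`, level `N`, finite set `S ∋ p` containing the primes of `N`, and
absolutely irreducible `ρbar` with Frobenius characteristic polynomials `X² - θ(T_ℓ) X + ℓ`:
a `HeckeGaloisRepDatum N S 𝒪 θ (heckeLocal N S 𝒪 θ)` with `π = heckeLocal.π`, cyclotomic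
determinant and residual representation `ρbar`.
-/
import Fermat.Agent.S59.Datum.H7_Asm
import Fermat.Agent.S59.Datum.H85_Ring
import Fermat.Agent.S59.Datum.H8_Adapt
import Fermat.Agent.S59.Datum.H41_DetCyc
import Fermat.Agent.S59.Datum.H57_ResIrr
import Fermat.Agent.S59.Datum.H85_Cont
import Fermat.Agent.S59.Datum.H41_Odd
import Fermat.Agent.S59.Datum.H8_Unit

set_option autoImplicit false

namespace Fermat.Agent.S59.Datum

/-- **DATUM** from S30 alone. -/
theorem stmt_DATUM_of_S30 (hS30 : Fermat.Agent.R.Stmt_S30) : Stmt_DATUM :=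
  H7.stmt_DATUM_of hS30 H85.stmt_Ring H8.stmt_Adapt H41.stmt_DetCyc H57.stmt_ResIrr
    H85.stmt_Cont H41.stmt_Odd H8.stmt_Unit

end Fermat.Agent.S59.Datum
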