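/-
S59 package DATUM (helper7): `stmt_DATUM : Stmt_DATUM`, unconditional
(S30 from cluster R: `R.H33.stmt_S30`).
-/
import Fermat.Agent.S59.Datum.Main
import Fermat.Agent.R.H33_TatePiece

set_option autoImplicit false

namespace Fermat.Agent.S59.Datum

/-- **DATUM**, unconditional. -/
theorem stmt_DATUM : Stmt_DATUM := stmt_DATUM_of_S30 Fermat.Agent.R.H33.stmt_S30

end Fermat.Agent.S59.Datum
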