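/-
S59 package COND (owner helper7), leaf **COND-FLATDESC** (helper78): `Datum.Stmt_FlatDesc` of
`S59/Datum/Defs3.lean`.

If `ρ` over a local ring `A` with finite residue field is flat at `p` and `ρ.residual` is a base
change of `ρbar`, then `ρbar` is flat at `p`.

Route: `V ⧸ 𝔪 V` is a flat Galois module; `ρbar.V → k_A ⊗[k] ρbar.V ≃ k_A ⊗[A] V ≃ V ⧸ 𝔪 V` is
injective and equivariant (`R.H54.stmt_FlatSub`); the quotients `ρbar.V ⧸ I ρbar.V` are
equivariant quotients (`R.H54.stmt_FlatQuot`).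
-/
import Fermat.Agent.S59.Datum.Defs3
import Fermat.Agent.R.Flat.H54_ClosureSub
import Fermat.Agent.R.Flat.H54_ClosureQuot

set_option autoImplicit false
set_option linter.unusedSectionVars false
set_option linter.unusedVariables false
set_option linter.style.haveILetI false

open IsLocalRing TensorProduct

noncomputable section

namespace Fermat.Agent.S59.Datum.H78

open Fermat.Agent.R

local notation "Γℚ" => (AlgebraicClosure ℚ ≃ₐ[ℚ] AlgebraicClosure ℚ)

section quot

variable {A : Type} [CommRing A] [IsLocalRing A] (ρ : GaloisRepAdic A)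

/-- `k_A ⊗[A] V ≃ V ⧸ 𝔪 V`. -/
def resQuot : (ResidueField A ⊗[A] ρ.V) ≃ₗ[A]
    (ρ.V ⧸ (maximalIdeal A • (⊤ : Submodule A ρ.V))) :=
  TensorProduct.quotTensorEquivQuotSMul ρ.V (maximalIdeal A)

theorem resQuot_tmul (r : A) (v : ρ.V) :
    resQuot ρ (residue A r ⊗ₜ[A] v) = Submodule.Quotient.mk (r • v) :=
  TensorProduct.quotTensorEquivQuotSMul_mk_tmul (maximalIdeal A) r v

theorem resQuot_equivariant (σ : Γℚ) (x : ResidueField A ⊗[A] ρ.V) :
    resQuot ρ ((ρ.ρ σ).baseChange (ResidueField A) x) =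
      ρ.levelAction (maximalIdeal A) σ (resQuot ρ x) := by
  induction x using TensorProduct.induction_on with
  | zero => rw [map_zero, map_zero, map_zero]
  | tmul c v =>
    obtain ⟨r, rfl⟩ := residue_surjective c
    rw [LinearMap.baseChange_tmul, resQuot_tmul, resQuot_tmul]
    show _ = Submodule.Quotient.mk (ρ.ρ σ (r • v))
    rw [map_smul]
  | add x y hx hy => rw [map_add, map_add, map_add, map_add, hx, hy]

/-- The inverse of `resQuot`, as an additive map. -/
def quotRes : (ρ.V ⧸ (maximalIdeal A • (⊤ : Submodule A ρ.V))) →+ (ResidueField A ⊗[A] ρ.V) :=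
  ((resQuot ρ).symm : _ →ₗ[A] _).toAddMonoidHom

theorem quotRes_apply (x : ρ.V ⧸ (maximalIdeal A • (⊤ : Submodule A ρ.V))) :
    quotRes ρ x = (resQuot ρ).symm x := rfl

end quot

/-- The residual representation of a flat representation is a flat Galois module. -/
theorem isFlatGaloisModule_residual {A : Type} [CommRing A] [IsLocalRing A]
    (ρ : GaloisRepAdic A) (p : ℕ) (hp : p.Prime) (h : ρ.IsFlatAt p) :
    IsFlatGaloisModule p (ResidueField A ⊗[A] ρ.V)
      (fun σ => (ρ.ρ σ).baseChange (ResidueField A)) := by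
  rw [isFlatAt_iff] at h
  haveI := h.1
  have hfin : Finite (A ⧸ maximalIdeal A) := h.1
  have h₀ := h.2 (maximalIdeal A) hfin
  refine H54.stmt_FlatQuot p hp _ _ _ _ (quotRes ρ) ?_ ?_ h₀
  · exact (resQuot ρ).symm.surjective
  · intro σ x
    rw [quotRes_apply, quotRes_apply]
    apply (resQuot ρ).injective
    rw [LinearEquiv.apply_symm_apply, resQuot_equivariant, LinearEquiv.apply_symm_apply]

/-- A flat Galois module structure on `ρbar.V` gives flatness of `ρbar`. -/
theorem isFlatAt_of_isFlatGaloisModule {k : Type} [Field k] [Finite k]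
    (ρbar : ResidualGaloisRep k) (p : ℕ) (hp : p.Prime)
    (h : IsFlatGaloisModule p ρbar.V (fun σ => ρbar.ρ σ)) :
    (GaloisRepAdic.ofResidualGaloisRep ρbar).IsFlatAt p := by
  rw [isFlatAt_iff]
  refine ⟨Finite.of_surjective (residue k) residue_surjective, fun I hI => ?_⟩
  have hmod : IsFlatGaloisModule p (GaloisRepAdic.ofResidualGaloisRep ρbar).V
      (fun σ => (GaloisRepAdic.ofResidualGaloisRep ρbar).ρ σ) := h
  refine H54.stmt_FlatQuot p hp _ _ _ _
    (Submodule.mkQ (I • (⊤ : Submodule k (GaloisRepAdic.ofResidualGaloisRep ρbar).V))).toAddMonoidHom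
    ?_ ?_ hmod
  · exact Submodule.mkQ_surjective _
  · intro σ x
    rfl

section main

variable {k : Type} [Field k] (ρbar : ResidualGaloisRep k) {kA : Type} [Field kA] [Algebra k kA]

/-- `v ↦ 1 ⊗ v`. -/
def incl : ρbar.V →+ (kA ⊗[k] ρbar.V) :=
  (TensorProduct.mk k kA ρbar.V 1).toAddMonoidHom

theorem incl_apply (v : ρbar.V) : incl ρbar (kA := kA) v = (1 : kA) ⊗ₜ[k] v := rfl

theorem incl_injective : Function.Injective (incl ρbar (kA := kA)) :=
  Module.FaithfullyFlat.tensorProduct_mk_injective (A := k) (B := kA) ρbar.V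

theorem incl_equivariant (σ : Γℚ) (v : ρbar.V) :
    incl ρbar (kA := kA) (ρbar.ρ σ v) = (ρbar.ρ σ).baseChange kA (incl ρbar (kA := kA) v) := by
  rw [incl_apply, incl_apply, LinearMap.baseChange_tmul]

end main

/-- **COND-FLATDESC**. -/
theorem stmt_FlatDesc : Stmt_FlatDesc := by
  intro p hp k _ _ ρbar A _ _ _ φ ρ hequiv hflat
  obtain ⟨e⟩ := hequiv
  have h1 := isFlatGaloisModule_residual ρ p hp hflat
  apply isFlatAt_of_isFlatGaloisModule ρbar p hp
  letI : Algebra k (ResidueField A) := φ.toAlgebra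
  -- the equivalence, with explicit types
  let e' : (ResidueField A ⊗[A] ρ.V) ≃ₗ[ResidueField A] (ResidueField A ⊗[k] ρbar.V) :=
    e.toLinearEquiv
  have he' : ∀ (σ : Γℚ) (x : ResidueField A ⊗[A] ρ.V),
      e' ((ρ.ρ σ).baseChange (ResidueField A) x) =
        (ρbar.ρ σ).baseChange (ResidueField A) (e' x) := fun σ x => e.map_apply σ x
  let ι : ρbar.V →+ (ResidueField A ⊗[A] ρ.V) :=
    (e'.symm : _ →ₗ[ResidueField A] _).toAddMonoidHom.comp (incl ρbar (kA := ResidueField A))
  have hι : ∀ v, ι v = e'.symm (incl ρbar (kA := ResidueField A) v) := fun v => rfl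
  refine H54.stmt_FlatSub p hp _ ρbar.V _ _ ι ?_ ?_ h1
  · intro x y hxy
    rw [hι, hι] at hxy
    exact incl_injective ρbar (e'.symm.injective hxy)
  · intro σ x
    show ι (ρbar.ρ σ x) = (ρ.ρ σ).baseChange (ResidueField A) (ι x)
    rw [hι, hι]
    apply e'.injective
    rw [LinearEquiv.apply_symm_apply, he', LinearEquiv.apply_symm_apply, incl_equivariant]

end Fermat.Agent.S59.Datum.H78
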