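/-
S59 package COND, leaf FLATDESC (helper8): flatness passes to the residual representation and
descends along an extension of the (finite) residue field.
-/
import Fermat.Agent.S59.Datum.Defs3
import Fermat.Agent.R.Flat.H54_ClosureQuot

set_option autoImplicit false

open Polynomial IsLocalRing CuspForm
open scoped TensorProduct

namespace Fermat.Agent.S59.Datum.H8

open Fermat.Agent.R

/-- A Galois-equivariant injection of `ρbar.V` into `V ⧸ 𝔪 V`. -/
theorem exists_embedding {k : Type} [Field k] (ρbar : ResidualGaloisRep k)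
    {A : Type} [CommRing A] [IsLocalRing A]
    (φ : k →+* ResidueField A) (ρ : GaloisRepAdic A)
    (he : ρ.residual.IsEquiv (ρbar.baseChangeAlong φ)) :
    ∃ ι : ρbar.V →+ ρ.V ⧸ (maximalIdeal A • (⊤ : Submodule A ρ.V)),
      Function.Injective ι ∧
      ∀ σ x, ι (ρbar.ρ σ x) = ρ.levelAction (maximalIdeal A) σ (ι x) := by
  classical
  obtain ⟨e⟩ := he
  let _ : Algebra k (ResidueField A) := φ.toAlgebra
  -- the three maps
  let j : ρbar.V →ₗ[k] ResidueField A ⊗[k] ρbar.V := TensorProduct.mk k (ResidueField A) ρbar.V 1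
  have hj : Function.Injective j :=
    Module.Flat.tensorProduct_mk_injective k ρbar.V (ResidueField A)
  let q0 : (A ⧸ maximalIdeal A) ⊗[A] ρ.V ≃ₗ[A]
      ρ.V ⧸ (maximalIdeal A • (⊤ : Submodule A ρ.V)) :=
    TensorProduct.quotTensorEquivQuotSMul ρ.V (maximalIdeal A)
  let q : ResidueField A ⊗[A] ρ.V →+ ρ.V ⧸ (maximalIdeal A • (⊤ : Submodule A ρ.V)) :=
    (q0 : (A ⧸ maximalIdeal A) ⊗[A] ρ.V →ₗ[A] _).toAddMonoidHom
  have hq : Function.Injective q := q0.injective
  have hq_tmul : ∀ (a : A) (v : ρ.V), q ((residue A a) ⊗ₜ[A] v)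
      = Submodule.Quotient.mk (a • v) := fun a v =>
    TensorProduct.quotTensorEquivQuotSMul_mk_tmul (maximalIdeal A) a v
  let es : ResidueField A ⊗[k] ρbar.V →+ ResidueField A ⊗[A] ρ.V :=
    (e.symm.toLinearEquiv :
      (ρbar.baseChangeAlong φ).V →ₗ[ResidueField A] ρ.residual.V).toAddMonoidHom
  have hes : Function.Injective es := e.symm.toLinearEquiv.injective
  have hes_eq : ∀ σ (x : ResidueField A ⊗[k] ρbar.V),
      es ((ρbar.ρ σ).baseChange (ResidueField A) x)
        = (ρ.ρ σ).baseChange (ResidueField A) (es x) := fun σ x => e.symm.map_apply σ x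
  have hq_eq : ∀ σ (y : ResidueField A ⊗[A] ρ.V),
      q ((ρ.ρ σ).baseChange (ResidueField A) y) = ρ.levelAction (maximalIdeal A) σ (q y) := by
    intro σ y
    induction y using TensorProduct.induction_on with
    | zero => rw [map_zero, map_zero, map_zero]
    | tmul c v =>
      obtain ⟨a, rfl⟩ := residue_surjective c
      rw [LinearMap.baseChange_tmul, hq_tmul, hq_tmul, ← map_smul]
      rfl
    | add x y hx hy => rw [map_add, map_add, map_add, map_add, hx, hy]
  refine ⟨q.comp (es.comp j.toAddMonoidHom), ?_, ?_⟩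
  · exact hq.comp (hes.comp hj)
  · intro σ x
    change q (es (j (ρbar.ρ σ x))) = ρ.levelAction (maximalIdeal A) σ (q (es (j x)))
    rw [← hq_eq, ← hes_eq]
    rfl

/-- **FLATDESC**. -/
theorem stmt_FlatDesc : Stmt_FlatDesc := by
  intro p hp k _ _ ρbar A _ _ _ φ ρ he hflat
  obtain ⟨ι, hι, heq⟩ := exists_embedding ρbar φ ρ he
  rw [isFlatAt_iff] at hflat ⊢
  have hfin : Finite (A ⧸ maximalIdeal A) := hflat.1
  have h0 := hflat.2 (maximalIdeal A) hfin
  have h1 : IsFlatGaloisModule p ρbar.V (fun σ => ρbar.ρ σ) :=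
    H54.stmt_FlatSub p hp _ _ _ _ ι hι heq h0
  have hfink : Finite (ResidueField k) :=
    Finite.of_surjective (residue k) residue_surjective
  refine ⟨hfink, fun I _ => ?_⟩
  refine H54.stmt_FlatQuot p hp ρbar.V _ (fun σ => ρbar.ρ σ) _
    (Submodule.mkQ (I • (⊤ : Submodule k ρbar.V))).toAddMonoidHom ?_ ?_ h1
  · exact Submodule.mkQ_surjective _
  · intro σ x
    rfl

end Fermat.Agent.S59.Datum.H8
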